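/-
S26 / Alg / Semi : toolkit for semilinear maps and `IsBC` (base change along a ring hom).
SKELETON (helper26): statements are frozen, proofs to be filled in (packages SEMI-1, SEMI-2).
-/
import Fermat.Agent.S26.Defs

set_option autoImplicit false

open scoped TensorProduct

universe u

namespace Fermat.Agent.S26

section

variable {S S' S'' : Type u} [CommRing S] [CommRing S'] [CommRing S'']
  (φ : S →+* S') (ψ : S' →+* S'')
  {M M' M'' N N' : Type u} [AddCommGroup M] [Module S M] [AddCommGroup M'] [Module S' M']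
  [AddCommGroup M''] [Module S'' M'']
  [AddCommGroup N] [Module S N] [AddCommGroup N'] [Module S' N']

/-! ### SEMI-1 : constructions -/

/-- tensor product of two semilinear maps -/
noncomputable def semiTensor (g : M →ₛₗ[φ] M') (g₂ : N →ₛₗ[φ] N') :
    (M ⊗[S] N) →ₛₗ[φ] (M' ⊗[S'] N') := TensorProduct.map g g₂

@[simp] theorem semiTensor_tmul (g : M →ₛₗ[φ] M') (g₂ : N →ₛₗ[φ] N') (m : M) (n : N) :
    semiTensor φ g g₂ (m ⊗ₜ n) = g m ⊗ₜ g₂ n := rfl

/-- universal property of `IsBC` -/
noncomputable def IsBC.lift {g : M →ₛₗ[φ] M'} (hg : IsBC φ g) (f : M →ₛₗ[φ] N') : M' →ₗ[S'] N' :=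
  letI := φ.toAlgebra
  letI := Module.compHom M' φ
  letI := Module.compHom N' φ
  haveI : IsScalarTower S S' M' := IsScalarTower.of_algebraMap_smul fun _ _ => rfl
  haveI : IsScalarTower S S' N' := IsScalarTower.of_algebraMap_smul fun _ _ => rfl
  IsBaseChange.lift (S := S') (f := semiToLin φ g) hg (semiToLin φ f)

@[simp] theorem IsBC.lift_apply {g : M →ₛₗ[φ] M'} (hg : IsBC φ g) (f : M →ₛₗ[φ] N') (m : M) :
    hg.lift φ f (g m) = f m := by
  letI := φ.toAlgebra
  letI := Module.compHom M' φ
  letI := Module.compHom N' φ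
  haveI : IsScalarTower S S' M' := IsScalarTower.of_algebraMap_smul fun _ _ => rfl
  haveI : IsScalarTower S S' N' := IsScalarTower.of_algebraMap_smul fun _ _ => rfl
  exact IsBaseChange.lift_eq (S := S') (f := semiToLin φ g) hg (semiToLin φ f) m

theorem IsBC.span_range {g : M →ₛₗ[φ] M'} (hg : IsBC φ g) :
    Submodule.span S' (Set.range g) = ⊤ := by
  letI := φ.toAlgebra
  letI := Module.compHom M' φ
  haveI : IsScalarTower S S' M' := IsScalarTower.of_algebraMap_smul fun _ _ => rfl
  have h : IsBaseChange S' (semiToLin φ g) := hg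
  rw [eq_top_iff]
  intro x _
  induction x using h.inductionOn with
  | zero => exact zero_mem _
  | tmul m => exact Submodule.subset_span ⟨m, rfl⟩
  | smul s n hn => exact Submodule.smul_mem _ s (hn trivial)
  | add n₁ n₂ h₁ h₂ => exact Submodule.add_mem _ (h₁ trivial) (h₂ trivial)

theorem IsBC.ext {g : M →ₛₗ[φ] M'} (hg : IsBC φ g) {f₁ f₂ : M' →ₗ[S'] N'}
    (h : ∀ m, f₁ (g m) = f₂ (g m)) : f₁ = f₂ := by
  apply LinearMap.ext_on_range (v := g) (hg.span_range φ)
  exact h

/-- transpose of a base change map -/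
noncomputable def semiDual {g : M →ₛₗ[φ] M'} (hg : IsBC φ g) :
    Module.Dual S M →ₛₗ[φ] Module.Dual S' M' where
  toFun l := hg.lift φ
    ({ toFun := fun m => φ (l m)
       map_add' := fun a b => by rw [map_add, map_add]
       map_smul' := fun s m => by rw [map_smul, smul_eq_mul, map_mul, smul_eq_mul] } : M →ₛₗ[φ] S')
  map_add' l₁ l₂ := by
    apply hg.ext φ
    intro m
    rw [LinearMap.add_apply, IsBC.lift_apply, IsBC.lift_apply, IsBC.lift_apply]
    exact map_add φ _ _
  map_smul' s l := by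
    apply hg.ext φ
    intro m
    rw [LinearMap.smul_apply, IsBC.lift_apply, IsBC.lift_apply]
    exact map_mul φ _ _

@[simp] theorem semiDual_apply {g : M →ₛₗ[φ] M'} (hg : IsBC φ g) (l : Module.Dual S M) (m : M) :
    semiDual φ hg l (g m) = φ (l m) :=
  IsBC.lift_apply φ hg _ m

/-- the canonical map `M → S' ⊗[S] M` -/
noncomputable def semiMk :
    letI := φ.toAlgebra
    M →ₛₗ[φ] (S' ⊗[S] M) :=
  letI := φ.toAlgebra
  { toFun := fun m => (1 : S') ⊗ₜ[S] m
    map_add' := fun a b => TensorProduct.tmul_add _ _ _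
    map_smul' := fun s m => by
      rw [TensorProduct.tmul_smul, TensorProduct.smul_tmul', TensorProduct.smul_tmul',
        smul_eq_mul, mul_one, Algebra.smul_def, mul_one]
      rfl }

theorem semiMk_apply (m : M) :
    letI := φ.toAlgebra
    semiMk φ m = (1 : S') ⊗ₜ[S] m := rfl

theorem isBC_semiMk :
    letI := φ.toAlgebra
    IsBC φ (semiMk φ : M →ₛₗ[φ] (S' ⊗[S] M)) := by
  letI := φ.toAlgebra
  exact TensorProduct.isBaseChange S M S'

end

end Fermat.Agent.S26
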