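import Mathlib

/-!
# S26 / ALG-3 : upper semicontinuity of the fibre dimension of a finite module
-/

set_option autoImplicit false

open scoped TensorProduct

universe u

namespace Fermat.Agent.S26

/-- if `κ ⊗ (M / range φ) = 0` for `φ : R^d → M` then `dim κ ⊗ M ≤ d`. -/
theorem semicont_finrank_le (R M : Type u) [CommRing R] [AddCommGroup M] [Module R M]
    (κ : Type u) [Field κ] [Algebra R κ] (d : ℕ) (φ : (Fin d → R) →ₗ[R] M)
    (h : Subsingleton (κ ⊗[R] (M ⧸ LinearMap.range φ))) :
    Module.finrank κ (κ ⊗[R] M) ≤ d := by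
  have hex : Function.Exact φ (LinearMap.range φ).mkQ := by
    intro m
    rw [Submodule.mkQ_apply, Submodule.Quotient.mk_eq_zero]
    rfl
  have hex' := lTensor_exact κ hex (Submodule.mkQ_surjective _)
  have hsurj : Function.Surjective (φ.baseChange κ) := by
    intro x
    have h0 : (LinearMap.range φ).mkQ.lTensor κ x = 0 := Subsingleton.elim _ _
    obtain ⟨y, hy⟩ := (hex' x).1 h0
    exact ⟨y, hy⟩
  have hR : Nontrivial R := (algebraMap R κ).domain_nontrivial
  have h1 : Module.finrank κ (κ ⊗[R] (Fin d → R)) = d := by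
    rw [Module.finrank_baseChange, Module.finrank_fin_fun]
  calc Module.finrank κ (κ ⊗[R] M) ≤ Module.finrank κ (κ ⊗[R] (Fin d → R)) :=
        LinearMap.finrank_le_finrank_of_surjective hsurj
    _ = d := h1

/-- there are `d = dim κ ⊗ M` elements of `M` spanning the fibre. -/
theorem semicont_exists_map (R M : Type u) [CommRing R] [AddCommGroup M] [Module R M]
    [Module.Finite R M] (κ : Type u) [Field κ] [Algebra R κ] :
    ∃ φ : (Fin (Module.finrank κ (κ ⊗[R] M)) → R) →ₗ[R] M,
      Subsingleton (κ ⊗[R] (M ⧸ LinearMap.range φ)) := by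
  set s : Set (κ ⊗[R] M) := Set.range (fun m : M => (1 : κ) ⊗ₜ[R] m) with hs
  have hspan : Submodule.span κ s = ⊤ := by
    have h1 := Submodule.baseChange_span (R := R) (A := κ) (Set.univ : Set M)
    rw [Submodule.span_univ, Submodule.baseChange_top, Set.image_univ] at h1
    exact h1.symm
  have hfin : Module.Finite κ (Submodule.span κ s) := inferInstance
  obtain ⟨f, hf, hfspan, -⟩ := Submodule.exists_fun_fin_finrank_span_eq κ s
  have hd : Module.finrank κ (Submodule.span κ s) = Module.finrank κ (κ ⊗[R] M) := by
    rw [hspan, finrank_top]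
  choose g hg using hf
  -- transport along `hd`
  set g' : Fin (Module.finrank κ (κ ⊗[R] M)) → M := fun i => g (Fin.cast hd.symm i) with hg'
  refine ⟨Fintype.linearCombination R g', ?_⟩
  set N := LinearMap.range (Fintype.linearCombination R g') with hN
  -- the base change of `mkQ` is surjective and kills a spanning set
  have hsurj : Function.Surjective (N.mkQ.baseChange κ) :=
    LinearMap.lTensor_surjective κ (Submodule.mkQ_surjective _)
  have hzero : N.mkQ.baseChange κ = 0 := by
    have hle : Submodule.span κ (Set.range f) ≤ LinearMap.ker (N.mkQ.baseChange κ) := by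
      rw [Submodule.span_le]
      rintro _ ⟨i, rfl⟩
      rw [SetLike.mem_coe, LinearMap.mem_ker, ← hg i, LinearMap.baseChange_tmul]
      have h2 : N.mkQ (g i) = 0 := by
        rw [Submodule.mkQ_apply, Submodule.Quotient.mk_eq_zero]
        refine ⟨Pi.single (Fin.cast hd i) 1, ?_⟩
        rw [Fintype.linearCombination_apply_single, one_smul]
        rfl
      rw [h2, TensorProduct.tmul_zero]
    rw [hfspan, hspan, top_le_iff] at hle
    exact LinearMap.ker_eq_top.1 hle
  refine ⟨fun a b => ?_⟩
  obtain ⟨a', rfl⟩ := hsurj a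
  obtain ⟨b', rfl⟩ := hsurj b
  rw [hzero]
  rfl

theorem isClosed_finrank_fiber_ge (R M : Type u) [CommRing R] [AddCommGroup M] [Module R M]
    [Module.Finite R M] (k : ℕ) :
    IsClosed {p : PrimeSpectrum R | k ≤ Module.finrank p.asIdeal.ResidueField
      (p.asIdeal.ResidueField ⊗[R] M)} := by
  rw [← isOpen_compl_iff, isOpen_iff_forall_mem_open]
  intro p hp
  have hp' : Module.finrank p.asIdeal.ResidueField (p.asIdeal.ResidueField ⊗[R] M) < k := by
    simpa using hp
  obtain ⟨φ, hφ⟩ := semicont_exists_map R M p.asIdeal.ResidueField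
  refine ⟨(Module.support R (M ⧸ LinearMap.range φ))ᶜ, ?_, ?_, ?_⟩
  · intro p' hp'
    have h1 : Subsingleton (p'.asIdeal.ResidueField ⊗[R] (M ⧸ LinearMap.range φ)) := by
      rw [← not_nontrivial_iff_subsingleton,
        ← Module.mem_support_iff_nontrivial_residueField_tensorProduct]
      exact hp'
    have h2 := semicont_finrank_le R M p'.asIdeal.ResidueField _ φ h1
    simp only [Set.mem_compl_iff, Set.mem_ofPred_eq, not_le]
    omega
  · rw [isOpen_compl_iff, Module.support_eq_zeroLocus]
    exact PrimeSpectrum.isClosed_zeroLocus _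
  · rw [Set.mem_compl_iff, Module.mem_support_iff_nontrivial_residueField_tensorProduct,
      not_nontrivial_iff_subsingleton]
    exact hφ

/-- fibre dimension is insensitive to enlarging the residue field -/
theorem finrank_fiber_eq_of_field (R M : Type u) [CommRing R] [AddCommGroup M] [Module R M]
    [Module.Finite R M] (L : Type u) [Field L] [Algebra R L] (p : PrimeSpectrum R)
    (hp : p.asIdeal = RingHom.ker (algebraMap R L)) :
    Module.finrank L (L ⊗[R] M) =
      Module.finrank p.asIdeal.ResidueField (p.asIdeal.ResidueField ⊗[R] M) := by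
  set κ := p.asIdeal.ResidueField with hκ
  let f : κ →+* L := Ideal.ResidueField.lift p.asIdeal (algebraMap R L) hp.le (by
    intro r hr
    rw [Submonoid.mem_comap, IsUnit.mem_submonoid_iff, isUnit_iff_ne_zero]
    intro h0
    apply hr
    rw [SetLike.mem_coe, hp, RingHom.mem_ker]
    exact h0)
  let _ : Algebra κ L := f.toAlgebra
  have htower : IsScalarTower R κ L := IsScalarTower.of_algebraMap_eq (fun r => by
    rw [RingHom.algebraMap_toAlgebra]
    exact (Ideal.ResidueField.lift_algebraMap _ _ _ _ r).symm)
  have e := TensorProduct.AlgebraTensorModule.cancelBaseChange R κ L L M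
  rw [← e.finrank_eq, Module.finrank_baseChange]

/-- constant on closed points => same value at every prime (R finitely generated over a field) -/
theorem finrank_fiber_eq_of_forall_maximal (K R M : Type u) [Field K] [CommRing R] [Algebra K R]
    [Algebra.FiniteType K R] [AddCommGroup M] [Module R M] [Module.Finite R M] (k : ℕ)
    (h : ∀ p : PrimeSpectrum R, p.asIdeal.IsMaximal →
      Module.finrank p.asIdeal.ResidueField (p.asIdeal.ResidueField ⊗[R] M) = k)
    (p : PrimeSpectrum R) :
    Module.finrank p.asIdeal.ResidueField (p.asIdeal.ResidueField ⊗[R] M) = k := by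
  have hJ : IsJacobsonRing R := isJacobsonRing_of_finiteType (A := K)
  have hJS : JacobsonSpace (PrimeSpectrum R) := PrimeSpectrum.isJacobsonRing_iff_jacobsonSpace.1 hJ
  apply le_antisymm
  · by_contra hlt
    have hne : {p : PrimeSpectrum R | k + 1 ≤ Module.finrank p.asIdeal.ResidueField
      (p.asIdeal.ResidueField ⊗[R] M)}.Nonempty := ⟨p, by simp only [Set.mem_ofPred_eq]; omega⟩
    obtain ⟨x, hx1, hx2⟩ := nonempty_inter_closedPoints hne
      (isClosed_finrank_fiber_ge R M (k + 1)).isLocallyClosed
    rw [mem_closedPoints_iff, PrimeSpectrum.isClosed_singleton_iff_isMaximal] at hx2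
    have := h x hx2
    simp only [Set.mem_ofPred_eq] at hx1
    omega
  · by_contra hlt
    have hne : ({p : PrimeSpectrum R | k ≤ Module.finrank p.asIdeal.ResidueField
      (p.asIdeal.ResidueField ⊗[R] M)}ᶜ).Nonempty := ⟨p, by simpa using hlt⟩
    obtain ⟨x, hx1, hx2⟩ := nonempty_inter_closedPoints hne
      (isClosed_finrank_fiber_ge R M k).isOpen_compl.isLocallyClosed
    rw [mem_closedPoints_iff, PrimeSpectrum.isClosed_singleton_iff_isMaximal] at hx2
    have := h x hx2
    simp only [Set.mem_compl_iff, Set.mem_ofPred_eq, not_le] at hx1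
    omega

end Fermat.Agent.S26
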