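/-
S26 / Alg / SemiBC : stability properties of `IsBC`.  (helper26 skeleton, package SEMI-2; proofs helper61)
-/
import Fermat.Agent.S26.Alg.Semi
import Fermat.Agent.S26.Alg.Semicont

set_option autoImplicit false
set_option linter.style.haveILetI false

open scoped TensorProduct

universe u

namespace Fermat.Agent.S26

section

variable {S S' S'' : Type u} [CommRing S] [CommRing S'] [CommRing S'']
  (φ : S →+* S') (ψ : S' →+* S'')
  {M M' M'' N N' : Type u} [AddCommGroup M] [Module S M] [AddCommGroup M'] [Module S' M']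
  [AddCommGroup M''] [Module S'' M'']
  [AddCommGroup N] [Module S N] [AddCommGroup N'] [Module S' N']

/-! ### the universal property -/

/-- universal property of `IsBC`, for targets which are only additive monoids -/
theorem SemiBC_existsUnique_lift {g : M →ₛₗ[φ] M'} (hg : IsBC φ g) (Q : Type u) [AddCommMonoid Q]
    [Module S' Q] (f : M →ₛₗ[φ] Q) : ∃! f' : M' →ₗ[S'] Q, ∀ m, f' (g m) = f m := by
  letI := φ.toAlgebra
  letI := Module.compHom M' φ
  letI := Module.compHom Q φ
  haveI : IsScalarTower S S' M' := IsScalarTower.of_algebraMap_smul fun _ _ => rfl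
  haveI : IsScalarTower S S' Q := IsScalarTower.of_algebraMap_smul fun _ _ => rfl
  have h : IsBaseChange S' (semiToLin φ g) := hg
  let f₀ : M →ₗ[S] Q :=
    { toFun := f
      map_add' := f.map_add
      map_smul' := fun s m => f.map_smulₛₗ s m }
  refine ⟨h.lift f₀, fun m => h.lift_eq f₀ m, fun f' hf' => ?_⟩
  apply h.algHom_ext
  intro m
  exact (hf' m).trans (h.lift_eq f₀ m).symm

/-- the universal property characterises `IsBC` -/
theorem SemiBC_of_lift_unique (g : M →ₛₗ[φ] M')
    (h : ∀ (Q : Type u) [AddCommMonoid Q] [Module S' Q] (f : M →ₛₗ[φ] Q),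
      ∃! f' : M' →ₗ[S'] Q, ∀ m, f' (g m) = f m) : IsBC φ g := by
  letI := φ.toAlgebra
  letI := Module.compHom M' φ
  haveI : IsScalarTower S S' M' := IsScalarTower.of_algebraMap_smul fun _ _ => rfl
  show IsBaseChange S' (semiToLin φ g)
  apply IsBaseChange.of_lift_unique
  intro Q _ _ _ _ g₀
  let f : M →ₛₗ[φ] Q :=
    { toFun := g₀
      map_add' := g₀.map_add
      map_smul' := fun s m => by
        rw [g₀.map_smul]
        exact (algebraMap_smul S' s (g₀ m)).symm }
  obtain ⟨f', hf', huniq⟩ := h Q f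
  refine ⟨f', LinearMap.ext hf', fun f'' hf'' => huniq f'' fun m => ?_⟩
  exact LinearMap.congr_fun hf'' m

/-- the lift -/
noncomputable def SemiBC_lift {g : M →ₛₗ[φ] M'} (hg : IsBC φ g) {Q : Type u} [AddCommMonoid Q]
    [Module S' Q] (f : M →ₛₗ[φ] Q) : M' →ₗ[S'] Q := (SemiBC_existsUnique_lift φ hg Q f).choose

theorem SemiBC_lift_apply {g : M →ₛₗ[φ] M'} (hg : IsBC φ g) {Q : Type u} [AddCommMonoid Q]
    [Module S' Q] (f : M →ₛₗ[φ] Q) (m : M) : SemiBC_lift φ hg f (g m) = f m :=
  (SemiBC_existsUnique_lift φ hg Q f).choose_spec.1 m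

theorem SemiBC_ext {g : M →ₛₗ[φ] M'} (hg : IsBC φ g) {Q : Type u} [AddCommMonoid Q]
    [Module S' Q] {f₁ f₂ : M' →ₗ[S'] Q} (h : ∀ m, f₁ (g m) = f₂ (g m)) : f₁ = f₂ := by
  apply LinearMap.ext_on_range (v := g) (hg.span_range φ)
  exact h


/-- generators go to generators -/
theorem SemiBC_span_image {g : M →ₛₗ[φ] M'} (hg : IsBC φ g) (s : Set M)
    (hs : Submodule.span S s = ⊤) : Submodule.span S' (g '' s) = ⊤ := by
  rw [eq_top_iff, ← hg.span_range φ, Submodule.span_le]
  rintro _ ⟨m, rfl⟩
  have hm : m ∈ Submodule.span S s := hs ▸ Submodule.mem_top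
  induction hm using Submodule.span_induction with
  | mem x hx => exact Submodule.subset_span ⟨x, hx, rfl⟩
  | zero => rw [map_zero]; exact zero_mem _
  | add x y _ _ hx hy => rw [map_add]; exact add_mem hx hy
  | smul a x _ hx => rw [g.map_smulₛₗ]; exact Submodule.smul_mem _ _ hx

/-- the comparison isomorphism -/
theorem SemiBC_exists_equiv {g : M →ₛₗ[φ] M'} (hg : IsBC φ g) :
    letI := φ.toAlgebra
    Nonempty ((S' ⊗[S] M) ≃ₗ[S'] M') := by
  letI := φ.toAlgebra
  letI := Module.compHom M' φ
  haveI : IsScalarTower S S' M' := IsScalarTower.of_algebraMap_smul fun _ _ => rfl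
  have h : IsBaseChange S' (semiToLin φ g) := hg
  exact ⟨h.equiv⟩

/-! ### SEMI-2 : stability properties of `IsBC` -/

/-- between invertible modules a spanning semilinear map is a base change -/
theorem isBC_of_span_of_invertible [Module.Invertible S M] [Module.Invertible S' M']
    (g : M →ₛₗ[φ] M') (hg : Submodule.span S' (Set.range g) = ⊤) : IsBC φ g := by
  letI := φ.toAlgebra
  letI := Module.compHom M' φ
  haveI : IsScalarTower S S' M' := IsScalarTower.of_algebraMap_smul fun _ _ => rfl
  show IsBaseChange S' (semiToLin φ g)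
  let F : (S' ⊗[S] M) →ₗ[S'] M' := LinearMap.liftBaseChange S' (semiToLin φ g)
  have hF : ∀ m, F (1 ⊗ₜ m) = g m := fun m => by
    simp only [F, LinearMap.liftBaseChange_tmul, one_smul]
    rfl
  have hsurj : Function.Surjective F := by
    rw [← LinearMap.range_eq_top, eq_top_iff, ← hg, Submodule.span_le]
    rintro _ ⟨m, rfl⟩
    exact ⟨1 ⊗ₜ m, hF m⟩
  have hbij : Function.Bijective F := Module.Invertible.bijective_of_surjective hsurj
  exact IsBaseChange.of_equiv (LinearEquiv.ofBijective F hbij) hF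

theorem IsBC.comp {χ : S →+* S''} [RingHomCompTriple φ ψ χ] {g : M →ₛₗ[φ] M'}
    {g' : M' →ₛₗ[ψ] M''} (hg : IsBC φ g) (hg' : IsBC ψ g') : IsBC χ (g'.comp g) := by
  apply SemiBC_of_lift_unique
  intro Q _ _ f
  letI : Module S' Q := Module.compHom Q ψ
  let f₁ : M →ₛₗ[φ] Q :=
    { toFun := f
      map_add' := f.map_add
      map_smul' := fun s m => by
        rw [f.map_smulₛₗ, ← RingHomCompTriple.comp_apply (σ₁₂ := φ) (σ₂₃ := ψ) (σ₁₃ := χ)]
        rfl }
  let F₁ : M' →ₗ[S'] Q := SemiBC_lift φ hg f₁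
  have hF₁ : ∀ m, F₁ (g m) = f m := SemiBC_lift_apply φ hg f₁
  let F₁' : M' →ₛₗ[ψ] Q :=
    { toFun := F₁
      map_add' := F₁.map_add
      map_smul' := fun s m => F₁.map_smul s m }
  refine ⟨SemiBC_lift ψ hg' F₁', fun m => ?_, fun F hF => ?_⟩
  · rw [LinearMap.comp_apply, SemiBC_lift_apply]
    exact hF₁ m
  · apply SemiBC_ext ψ hg'
    intro m'
    rw [SemiBC_lift_apply]
    let G : M' →ₗ[S'] Q :=
      { toFun := fun x => F (g' x)
        map_add' := fun a b => by rw [map_add, map_add]
        map_smul' := fun s x => by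
          rw [g'.map_smulₛₗ, map_smul]
          rfl }
    have hG : G = F₁ := by
      apply SemiBC_ext φ hg
      intro m
      rw [hF₁]
      exact hF m
    exact LinearMap.congr_fun hG m'


theorem IsBC.tensor {g : M →ₛₗ[φ] M'} {g₂ : N →ₛₗ[φ] N'} (hg : IsBC φ g) (hg₂ : IsBC φ g₂) :
    IsBC φ (semiTensor φ g g₂) := by
  apply SemiBC_of_lift_unique
  intro Q _ _ f
  -- partial maps
  let fm : M → (N →ₛₗ[φ] Q) := fun m =>
    { toFun := fun n => f (m ⊗ₜ n)
      map_add' := fun a b => by rw [TensorProduct.tmul_add, map_add]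
      map_smul' := fun s n => by rw [TensorProduct.tmul_smul, f.map_smulₛₗ] }
  let L : M →ₛₗ[φ] (N' →ₗ[S'] Q) :=
    { toFun := fun m => SemiBC_lift φ hg₂ (fm m)
      map_add' := fun a b => by
        apply SemiBC_ext φ hg₂
        intro n
        rw [LinearMap.add_apply, SemiBC_lift_apply, SemiBC_lift_apply, SemiBC_lift_apply]
        show f ((a + b) ⊗ₜ n) = f (a ⊗ₜ n) + f (b ⊗ₜ n)
        rw [TensorProduct.add_tmul, map_add]
      map_smul' := fun s a => by
        apply SemiBC_ext φ hg₂
        intro n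
        rw [LinearMap.smul_apply, SemiBC_lift_apply, SemiBC_lift_apply]
        show f ((s • a) ⊗ₜ n) = φ s • f (a ⊗ₜ n)
        rw [← TensorProduct.smul_tmul', f.map_smulₛₗ] }
  let LL : M' →ₗ[S'] N' →ₗ[S'] Q := SemiBC_lift φ hg L
  have hLL : ∀ m n, LL (g m) (g₂ n) = f (m ⊗ₜ n) := by
    intro m n
    have h1 : LL (g m) = L m := SemiBC_lift_apply φ hg L m
    rw [h1]
    exact SemiBC_lift_apply φ hg₂ (fm m) n
  refine ⟨TensorProduct.lift LL, fun x => ?_, fun F hF => ?_⟩
  · induction x using TensorProduct.induction_on with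
    | zero => rw [map_zero, map_zero, map_zero]
    | tmul m n => rw [semiTensor_tmul, TensorProduct.lift.tmul, hLL]
    | add a b ha hb => rw [map_add, map_add, map_add, ha, hb]
  · apply TensorProduct.ext
    apply SemiBC_ext φ hg
    intro m
    apply SemiBC_ext φ hg₂
    intro n
    show F (g m ⊗ₜ g₂ n) = TensorProduct.lift LL (g m ⊗ₜ g₂ n)
    rw [TensorProduct.lift.tmul, hLL, ← semiTensor_tmul, hF]

/-- a finite projective module has a finite "dual basis" -/
theorem SemiBC_exists_dualBasis (S M : Type u) [CommRing S] [AddCommGroup M] [Module S M]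
    [Module.Finite S M] [Module.Projective S M] :
    ∃ (n : ℕ) (e : Fin n → M) (l : Fin n → Module.Dual S M), ∀ x, ∑ i, l i x • e i = x := by
  obtain ⟨n, f, hf⟩ := Module.Finite.exists_fin' S M
  obtain ⟨h, hh⟩ := Module.projective_lifting_property f LinearMap.id hf
  refine ⟨n, fun i => f (fun j => if i = j then 1 else 0), fun i => LinearMap.proj i ∘ₗ h,
    fun x => ?_⟩
  have h1 : f (h x) = x := LinearMap.congr_fun hh x
  exact (LinearMap.pi_apply_eq_sum_univ f (h x)).symm.trans h1

theorem IsBC.dual [Module.Finite S M] [Module.Projective S M] {g : M →ₛₗ[φ] M'} (hg : IsBC φ g) :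
    IsBC φ (semiDual φ hg) := by
  obtain ⟨n, e, l, hel⟩ := SemiBC_exists_dualBasis S M
  -- expansion of a functional on `M`
  have hl : ∀ a₀ : Module.Dual S M, ∑ i, a₀ (e i) • l i = a₀ := by
    intro a₀
    ext x
    rw [LinearMap.sum_apply]
    conv_rhs => rw [← hel x, map_sum]
    refine Finset.sum_congr rfl fun i _ => ?_
    rw [LinearMap.smul_apply, map_smul, smul_eq_mul, smul_eq_mul, mul_comm]
  -- expansion of a functional on `M'`
  have hl' : ∀ a₁ : Module.Dual S' M', ∑ i, a₁ (g (e i)) • semiDual φ hg (l i) = a₁ := by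
    intro a₁
    apply hg.ext φ
    intro m
    rw [LinearMap.sum_apply]
    conv_rhs => rw [← hel m, map_sum, map_sum]
    refine Finset.sum_congr rfl fun i _ => ?_
    rw [LinearMap.smul_apply, semiDual_apply, g.map_smulₛₗ, map_smul, smul_eq_mul, smul_eq_mul,
      mul_comm]
  apply SemiBC_of_lift_unique
  intro Q _ _ f
  let F : Module.Dual S' M' →ₗ[S'] Q :=
    { toFun := fun a₁ => ∑ i, a₁ (g (e i)) • f (l i)
      map_add' := fun a b => by
        simp only [LinearMap.add_apply, add_smul, Finset.sum_add_distrib]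
      map_smul' := fun s a => by
        simp only [LinearMap.smul_apply, smul_eq_mul, mul_smul, Finset.smul_sum,
          RingHom.id_apply] }
  refine ⟨F, fun a₀ => ?_, fun F' hF' => ?_⟩
  · show ∑ i, semiDual φ hg a₀ (g (e i)) • f (l i) = f a₀
    conv_rhs => rw [← hl a₀, map_sum]
    refine Finset.sum_congr rfl fun i _ => ?_
    rw [semiDual_apply, f.map_smulₛₗ]
  · ext a₁
    show F' a₁ = ∑ i, a₁ (g (e i)) • f (l i)
    conv_lhs => rw [← hl' a₁, map_sum]
    refine Finset.sum_congr rfl fun i _ => ?_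
    rw [map_smul, hF']

theorem IsBC.invertible [Module.Invertible S M] {g : M →ₛₗ[φ] M'} (hg : IsBC φ g) :
    Module.Invertible S' M' := by
  letI := φ.toAlgebra
  obtain ⟨e⟩ := SemiBC_exists_equiv φ hg
  exact Module.Invertible.congr e

theorem IsBC.finite [Module.Finite S M] {g : M →ₛₗ[φ] M'} (hg : IsBC φ g) :
    Module.Finite S' M' := by
  letI := φ.toAlgebra
  obtain ⟨e⟩ := SemiBC_exists_equiv φ hg
  exact Module.Finite.equiv e

/-- a bijective semilinear map over a bijective ring hom is a base change -/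
theorem isBC_of_bijective (hφ : Function.Bijective φ) (g : M →ₛₗ[φ] M')
    (hg : Function.Bijective g) : IsBC φ g := by
  apply SemiBC_of_lift_unique
  intro Q _ _ f
  let ge := Equiv.ofBijective g hg
  have hge : ∀ m, ge.symm (g m) = m := fun m => ge.symm_apply_apply m
  let F : M' →ₗ[S'] Q :=
    { toFun := fun x => f (ge.symm x)
      map_add' := fun a b => by
        obtain ⟨a, rfl⟩ := hg.2 a
        obtain ⟨b, rfl⟩ := hg.2 b
        rw [← map_add, hge, hge, hge, map_add]
      map_smul' := fun s a => by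
        obtain ⟨a, rfl⟩ := hg.2 a
        obtain ⟨s, rfl⟩ := hφ.2 s
        rw [← g.map_smulₛₗ, hge, hge, f.map_smulₛₗ]
        rfl }
  refine ⟨F, fun m => ?_, fun F' hF' => ?_⟩
  · show f (ge.symm (g m)) = f m
    rw [hge]
  · ext x
    obtain ⟨m, rfl⟩ := hg.2 x
    rw [hF']
    show f m = f (ge.symm (g m))
    rw [hge]

/-- fibre dimension: comparison with the residue field of the kernel -/
theorem IsBC.finrank_eq {k : Type u} [Field k] (φ : S →+* k) {V : Type u} [AddCommGroup V]
    [Module k V] [Module.Finite S M] {g : M →ₛₗ[φ] V} (hg : IsBC φ g) (p : PrimeSpectrum S)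
    (hp : p.asIdeal = RingHom.ker φ) :
    Module.finrank k V =
      Module.finrank p.asIdeal.ResidueField (p.asIdeal.ResidueField ⊗[S] M) := by
  letI := φ.toAlgebra
  obtain ⟨e⟩ := SemiBC_exists_equiv φ hg
  rw [← e.finrank_eq]
  exact finrank_fiber_eq_of_field S M k p hp

/-- number of generators bounds the fibre dimension -/
theorem IsBC.finrank_le {k : Type u} [Field k] (φ : S →+* k) {V : Type u} [AddCommGroup V]
    [Module k V] {g : M →ₛₗ[φ] V} (hg : IsBC φ g) (s : Finset M)
    (hs : Submodule.span S (s : Set M) = ⊤) : Module.finrank k V ≤ s.card := by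
  classical
  have h1 := SemiBC_span_image φ hg (s : Set M) hs
  rw [← Finset.coe_image] at h1
  have h2 := finrank_span_finset_le_card (R := k) (s.image g)
  unfold Set.finrank at h2
  rw [h1, finrank_top] at h2
  exact h2.trans Finset.card_image_le

end

end Fermat.Agent.S26
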