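import Mathlib

/-!
# S26 / ET-1 : etale coordinates : cotangent generators, transcendence degree
-/

set_option autoImplicit false

open scoped TensorProduct

universe u

namespace Fermat.Agent.S26

/-- cotangent space from etale coordinates -/
theorem et_cotangent (K : Type u) [Field K] [IsAlgClosed K] (B : Type u) [CommRing B] [Algebra K B]
    (g : ℕ) (y : MvPolynomial (Fin g) K →ₐ[K] B) (hy : y.Etale) (ε : B →ₐ[K] K) :
    RingHom.ker ε ≤ Ideal.span (Set.range fun i => y (MvPolynomial.X i) -
      algebraMap K B (ε (y (MvPolynomial.X i)))) ⊔ (RingHom.ker ε) ^ 2 := by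
  let _ : Algebra (MvPolynomial (Fin g) K) B := y.toRingHom.toAlgebra
  have hst : IsScalarTower K (MvPolynomial (Fin g) K) B :=
    IsScalarTower.of_algebraMap_eq fun c => (y.commutes c).symm
  have het : Algebra.Etale (MvPolynomial (Fin g) K) B := hy
  set I : Ideal B := Ideal.span (Set.range fun i => y (MvPolynomial.X i) -
      algebraMap K B (ε (y (MvPolynomial.X i)))) ⊔ (RingHom.ker ε) ^ 2 with hI
  -- the two `K`-algebra maps `K[X] → B ⧸ I` agree
  have hagree : (Ideal.Quotient.mkₐ K I).comp y =
      ((Algebra.ofId K (B ⧸ I)).comp ε).comp y := by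
    apply MvPolynomial.algHom_ext
    intro i
    simp only [AlgHom.comp_apply, Ideal.Quotient.mkₐ_eq_mk, Algebra.ofId_apply]
    have h1 : algebraMap K (B ⧸ I) (ε (y (MvPolynomial.X i))) =
        Ideal.Quotient.mk I (algebraMap K B (ε (y (MvPolynomial.X i)))) := rfl
    rw [h1, Ideal.Quotient.eq]
    exact Ideal.mem_sup_left (Ideal.subset_span ⟨i, rfl⟩)
  -- two `K[X]`-algebra maps `B → B ⧸ I`
  let f₁ : B →ₐ[MvPolynomial (Fin g) K] B ⧸ I := Ideal.Quotient.mkₐ _ I
  let f₂ : B →ₐ[MvPolynomial (Fin g) K] B ⧸ I :=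
    { ((Algebra.ofId K (B ⧸ I)).comp ε).toRingHom with
      commutes' := fun p => (DFunLike.congr_fun hagree p).symm }
  have hf₂ : ∀ b, f₂ b = Ideal.Quotient.mk I (algebraMap K B (ε b)) := fun b => rfl
  set J : Ideal (B ⧸ I) := (RingHom.ker ε).map (Ideal.Quotient.mk I) with hJ
  have hJ2 : J ^ 2 = ⊥ := by
    rw [hJ, ← Ideal.map_pow, Ideal.map_eq_bot_iff_le_ker, Ideal.mk_ker]
    exact le_sup_right
  have hnil : IsNilpotent J := ⟨2, hJ2⟩
  have heq : f₁ = f₂ := by
    apply Algebra.FormallyUnramified.ext J hnil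
    intro b
    rw [Ideal.Quotient.eq, hf₂]
    have h2 : f₁ b - Ideal.Quotient.mk I (algebraMap K B (ε b)) =
        Ideal.Quotient.mk I (b - algebraMap K B (ε b)) := by
      rw [map_sub]; rfl
    rw [h2]
    apply Ideal.mem_map_of_mem
    rw [RingHom.mem_ker, map_sub, AlgHom.commutes]
    exact sub_self _
  intro b hb
  have h3 := DFunLike.congr_fun heq b
  rw [hf₂, RingHom.mem_ker.mp hb, map_zero, map_zero] at h3
  exact Ideal.Quotient.eq_zero_iff_mem.mp h3

/-- transcendence degree from etale coordinates -/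
theorem et_trdeg (K : Type u) [Field K] (B : Type u) [CommRing B] [IsDomain B] [Algebra K B]
    (g : ℕ) (y : MvPolynomial (Fin g) K →ₐ[K] B) (hy : y.Etale) :
    Algebra.trdeg K B = g := by
  let _ : Algebra (MvPolynomial (Fin g) K) B := y.toRingHom.toAlgebra
  have hst : IsScalarTower K (MvPolynomial (Fin g) K) B :=
    IsScalarTower.of_algebraMap_eq fun c => (y.commutes c).symm
  have het : Algebra.Etale (MvPolynomial (Fin g) K) B := hy
  have hflat : Module.Flat (MvPolynomial (Fin g) K) B := inferInstance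
  -- injectivity
  have hinj : Function.Injective (algebraMap (MvPolynomial (Fin g) K) B) := by
    rw [injective_iff_map_eq_zero]
    intro a ha
    by_contra ha0
    have hreg : IsSMulRegular B a :=
      Module.Flat.isSMulRegular_of_nonZeroDivisors (mem_nonZeroDivisors_of_ne_zero ha0)
    have h1 : a • (1 : B) = a • (0 : B) := by
      rw [Algebra.smul_def, ha, zero_mul, smul_zero]
    exact one_ne_zero (hreg h1)
  have hfs : FaithfulSMul (MvPolynomial (Fin g) K) B :=
    (faithfulSMul_iff_algebraMap_injective _ _).mpr hinj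
  -- algebraicity
  have halg : Algebra.IsAlgebraic (MvPolynomial (Fin g) K) B := by
    set A := MvPolynomial (Fin g) K
    let L := FractionRing A
    have h1 : Algebra.Etale L (L ⊗[A] B) := inferInstance
    have h2 : Module.Finite L (L ⊗[A] B) := Algebra.FormallyUnramified.finite_of_free L (L ⊗[A] B)
    have h3 : Algebra.IsAlgebraic L (L ⊗[A] B) := inferInstance
    have h4 : Function.Injective (Algebra.TensorProduct.includeRight : B →ₐ[A] L ⊗[A] B) :=
      Algebra.TensorProduct.includeRight_injective (IsFractionRing.injective A L)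
    refine ⟨fun b => ?_⟩
    rw [← isAlgebraic_algHom_iff (Algebra.TensorProduct.includeRight : B →ₐ[A] L ⊗[A] B) h4,
      IsFractionRing.isAlgebraic_iff A L]
    exact h3.isAlgebraic _
  rw [← trdeg_add_eq K (MvPolynomial (Fin g) K) (A := B),
    trdeg_eq_zero (R := MvPolynomial (Fin g) K) (A := B), add_zero,
    MvPolynomial.trdeg_of_isDomain]
  simp

end Fermat.Agent.S26
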