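import Mathlib

/-!
# S26 / ALG-2 : a proper quotient domain has smaller transcendence degree
-/

set_option autoImplicit false

open scoped TensorProduct

universe u

namespace Fermat.Agent.S26

/-- if `B` is a domain over the field `K` and `p` a nonzero ideal, no family of `B` whose image
in `B ⧸ p` is algebraically independent is a transcendence basis of `B`. -/
theorem trdeg_not_isTranscendenceBasis_of_comp {K B : Type*} [Field K] [CommRing B] [IsDomain B]
    [Algebra K B] (p : Ideal B) (hp : p ≠ ⊥) {ι : Type*} (y : ι → B)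
    (hy : AlgebraicIndependent K (fun i => Ideal.Quotient.mkₐ K p (y i))) :
    ¬ IsTranscendenceBasis K y := by
  intro hb
  obtain ⟨b, hbp, hb0⟩ := Submodule.exists_mem_ne_zero_of_ne_bot hp
  have halg := hb.isAlgebraic
  obtain ⟨r, hr0, hdvd⟩ := (halg.isAlgebraic b).exists_nonzero_dvd
    (mem_nonZeroDivisors_of_ne_zero hb0)
  have hrp : ((r : Algebra.adjoin K (Set.range y)) : B) ∈ p := Ideal.mem_of_dvd p hdvd hbp
  have hr : (r : B) ∈ (MvPolynomial.aeval (R := K) y).range := by
    rw [← Algebra.adjoin_range_eq_range_aeval]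
    exact r.2
  obtain ⟨Q, hQ⟩ := hr
  have hQ' : MvPolynomial.aeval y Q = (r : B) := hQ
  have h1 : MvPolynomial.aeval (fun i => Ideal.Quotient.mkₐ K p (y i)) Q = 0 := by
    rw [← MvPolynomial.comp_aeval_apply, hQ']
    exact Ideal.Quotient.eq_zero_iff_mem.mpr hrp
  have hQ0 := hy.eq_zero_of_aeval_eq_zero Q h1
  apply hr0
  apply Subtype.ext
  rw [← hQ', hQ0, map_zero]
  rfl

theorem trdeg_quotient_lt (K B : Type u) [Field K] [CommRing B] [IsDomain B] [Algebra K B]
    (hfin : Algebra.trdeg K B < Cardinal.aleph0) (p : Ideal B) [p.IsPrime] (hp : p ≠ ⊥) :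
    Algebra.trdeg K (B ⧸ p) < Algebra.trdeg K B := by
  rw [← not_le]
  intro hle
  have hdom : IsDomain (B ⧸ p) := Ideal.Quotient.isDomain p
  have hfs : FaithfulSMul K (B ⧸ p) := (faithfulSMul_iff_algebraMap_injective K _).mpr
    (algebraMap K (B ⧸ p)).injective
  obtain ⟨ι, x, hx⟩ := exists_isTranscendenceBasis' K (B ⧸ p)
  choose y hy using fun i => Ideal.Quotient.mk_surjective (x i)
  have hxy : (fun i => Ideal.Quotient.mkₐ K p (y i)) = x := funext hy
  have hind : AlgebraicIndependent K (fun i => Ideal.Quotient.mkₐ K p (y i)) := by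
    rw [hxy]; exact hx.1
  have hyind : AlgebraicIndependent K y :=
    AlgebraicIndependent.of_comp (Ideal.Quotient.mkₐ K p) hind
  rw [← hx.cardinalMk_eq_trdeg] at hle
  exact trdeg_not_isTranscendenceBasis_of_comp p hp y hind
    (hyind.isTranscendenceBasis_of_trdeg_le hfin hle)

/-- the fraction field has the same transcendence degree. -/
theorem trdeg_eq_of_isFractionRing (K B L : Type u) [Field K] [CommRing B] [IsDomain B]
    [Algebra K B] [Field L] [Algebra B L] [IsFractionRing B L] [Algebra K L]
    [IsScalarTower K B L] : Algebra.trdeg K L = Algebra.trdeg K B := by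
  have : Algebra.IsAlgebraic B L := IsLocalization.isAlgebraic L (nonZeroDivisors B)
  have : FaithfulSMul B L := (faithfulSMul_iff_algebraMap_injective B L).mpr
    (IsFractionRing.injective B L)
  have : FaithfulSMul K B := (faithfulSMul_iff_algebraMap_injective K B).mpr
    (algebraMap K B).injective
  have h := trdeg_add_eq K B (A := L)
  rw [trdeg_eq_zero (R := B) (A := L), add_zero] at h
  exact h.symm

end Fermat.Agent.S26
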