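import Mathlib

/-!
# S26 / ALG-1 : `final_arith` : multiplicative + slotwise quadratic ⇒ `d n = n ^ (2 g)`

Instead of comparing polynomials we use the two sided bound
`N ^ (2 g) ≤ 2 ^ g * d N` and `d N * w 1 ≤ N ^ (2 g) * K` for all `N`, applied to `N = n ^ k`, together
with `d (n ^ k) = d n ^ k`.
-/

set_option autoImplicit false

open scoped TensorProduct

universe u

namespace Fermat.Agent.S26

/-- if `x ^ k ≤ C * y ^ k` for all `k` then `x ≤ y`. -/
theorem finalarith_le_of_pow_le (x y C : ℕ) (h : ∀ k : ℕ, x ^ k ≤ C * y ^ k) : x ≤ y := by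
  by_contra hlt
  rw [not_le] at hlt
  rcases Nat.eq_zero_or_pos y with rfl | hy
  · have := h 1
    simp at this
    omega
  · have hy' : (0 : ℝ) < y := by exact_mod_cast hy
    have h1 : (1 : ℝ) < (x : ℝ) / y := by
      rw [one_lt_div hy']
      exact_mod_cast hlt
    obtain ⟨k, hk⟩ := pow_unbounded_of_one_lt (C : ℝ) h1
    rw [div_pow, lt_div_iff₀ (pow_pos hy' k)] at hk
    have h2 : (x : ℝ) ^ k ≤ C * (y : ℝ) ^ k := by exact_mod_cast h k
    exact absurd hk (not_lt.mpr h2)

/-- multiply the slots in `s` by `N`. -/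
def finalarithScale {g : ℕ} (s : Finset (Fin g)) (N : ℕ) (m : Fin g → ℤ) : Fin g → ℤ :=
  fun i => if i ∈ s then (N : ℤ) * m i else m i

theorem finalarith_scale_empty {g : ℕ} (N : ℕ) (m : Fin g → ℤ) : finalarithScale ∅ N m = m := by
  funext i
  simp [finalarithScale]

theorem finalarith_scale_univ {g : ℕ} (N : ℕ) (m : Fin g → ℤ) :
    finalarithScale Finset.univ N m = fun i => (N : ℤ) * m i := by
  funext i
  simp [finalarithScale]

theorem finalarith_scale_insert {g : ℕ} (s : Finset (Fin g)) (a : Fin g) (ha : a ∉ s) (N : ℕ)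
    (m : Fin g → ℤ) : finalarithScale (insert a s) N m =
      Function.update (finalarithScale s N m) a ((N : ℤ) * finalarithScale s N m a) := by
  funext i
  by_cases hi : i = a
  · subst hi
    simp [finalarithScale, ha]
  · simp [finalarithScale, hi]

theorem finalarith_scale_neg {g : ℕ} (s : Finset (Fin g)) (a : Fin g) (ha : a ∉ s) (N : ℕ)
    (m : Fin g → ℤ) : Function.update (finalarithScale s N m) a (- finalarithScale s N m a) =
      finalarithScale s N (Function.update m a (- m a)) := by
  funext i
  by_cases hi : i = a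
  · subst hi
    simp [finalarithScale, ha]
  · simp [finalarithScale, Function.update_of_ne hi]

theorem final_arith (g : ℕ) (d : ℕ → ℕ) (w : (Fin g → ℤ) → ℕ)
    (hdw : ∀ n : ℕ, 1 ≤ n → ∀ m : Fin g → ℤ, w (fun i => (n : ℤ) * m i) = d n * w m)
    (hq : ∀ (i : Fin g) (m : Fin g → ℤ) (n : ℕ), 1 ≤ n →
      2 * w (Function.update m i ((n : ℤ) * m i)) =
        n * (n + 1) * w m + n * (n - 1) * w (Function.update m i (- m i)))
    (hpos : 0 < w (fun _ => 1)) : ∀ n : ℕ, 1 ≤ n → d n = n ^ (2 * g) := by
  classical
  set W := w (fun _ => 1) with hW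
  -- multiplicativity of `d`
  have hd1 : d 1 = 1 := by
    have h := hdw 1 le_rfl (fun _ => 1)
    simp only [Nat.cast_one, mul_one] at h
    have h' : 1 * W = d 1 * W := by rw [one_mul]; exact h
    exact (Nat.eq_of_mul_eq_mul_right hpos h').symm
  have hdmul : ∀ a b : ℕ, 1 ≤ a → 1 ≤ b → d (a * b) = d a * d b := by
    intro a b ha hb
    have h1 := hdw (a * b) (Nat.mul_pos ha hb) (fun _ => 1)
    have h2 := hdw a ha (fun i => (b : ℤ) * 1)
    have h3 := hdw b hb (fun _ => 1)
    have h4 : (fun _ : Fin g => ((a * b : ℕ) : ℤ) * 1) = fun _ : Fin g => (a : ℤ) * ((b : ℤ) * 1) := by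
      funext i
      push_cast
      ring
    rw [h4, h2, h3] at h1
    apply Nat.eq_of_mul_eq_mul_right hpos
    rw [← h1, mul_assoc]
  have hdpow : ∀ n : ℕ, 1 ≤ n → ∀ k : ℕ, d (n ^ k) = d n ^ k := by
    intro n hn k
    induction k with
    | zero => simpa using hd1
    | succ k ih => rw [pow_succ, hdmul _ _ (Nat.one_le_pow _ _ hn) hn, ih, pow_succ]
  -- lower bound
  have hlow : ∀ N : ℕ, 1 ≤ N → ∀ (s : Finset (Fin g)) (m : Fin g → ℤ),
      N ^ (2 * s.card) * w m ≤ 2 ^ s.card * w (finalarithScale s N m) := by
    intro N hN s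
    induction s using Finset.induction_on with
    | empty => intro m; simp [finalarith_scale_empty]
    | insert a s ha ih =>
      intro m
      rw [Finset.card_insert_of_notMem ha, finalarith_scale_insert s a ha]
      have h1 := hq a (finalarithScale s N m) N hN
      have h2 := ih m
      calc N ^ (2 * (s.card + 1)) * w m = N * N * (N ^ (2 * s.card) * w m) := by ring
        _ ≤ N * N * (2 ^ s.card * w (finalarithScale s N m)) := Nat.mul_le_mul_left _ h2
        _ = 2 ^ s.card * (N * N * w (finalarithScale s N m)) := by ring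
        _ ≤ 2 ^ s.card * (N * (N + 1) * w (finalarithScale s N m) + N * (N - 1) *
              w (Function.update (finalarithScale s N m) a (- finalarithScale s N m a))) := by
            apply Nat.mul_le_mul_left
            refine le_trans ?_ (Nat.le_add_right _ _)
            apply Nat.mul_le_mul_right
            apply Nat.mul_le_mul_left
            omega
        _ = 2 ^ (s.card + 1) * w (Function.update (finalarithScale s N m) a
              ((N : ℤ) * finalarithScale s N m a)) := by
            rw [← h1]; ring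
  -- the sign vectors and the constant `K`
  set E : Finset (Fin g → ℤ) := Fintype.piFinset (fun _ => ({1, -1} : Finset ℤ)) with hE
  set K := E.sup w with hK
  have hEK : ∀ m ∈ E, w m ≤ K := fun m hm => Finset.le_sup hm
  have hEneg : ∀ m ∈ E, ∀ a, Function.update m a (- m a) ∈ E := by
    intro m hm a
    rw [hE, Fintype.mem_piFinset] at hm ⊢
    intro i
    by_cases hi : i = a
    · subst hi
      have := hm i
      simp only [Finset.mem_insert, Finset.mem_singleton] at this ⊢
      rw [Function.update_self]
      rcases this with h | h <;> rw [h] <;> simp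
    · rw [Function.update_of_ne hi]
      exact hm i
  have hE1 : (fun _ => 1 : Fin g → ℤ) ∈ E := by
    rw [hE, Fintype.mem_piFinset]
    intro i
    simp
  -- upper bound
  have hup : ∀ N : ℕ, 1 ≤ N → ∀ (s : Finset (Fin g)), ∀ m ∈ E,
      w (finalarithScale s N m) ≤ N ^ (2 * s.card) * K := by
    intro N hN s
    induction s using Finset.induction_on with
    | empty => intro m hm; simpa [finalarith_scale_empty] using hEK m hm
    | insert a s ha ih =>
      intro m hm
      rw [Finset.card_insert_of_notMem ha, finalarith_scale_insert s a ha]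
      have h1 := hq a (finalarithScale s N m) N hN
      rw [finalarith_scale_neg s a ha] at h1
      have h2 := ih m hm
      have h3 := ih _ (hEneg m hm a)
      have h4 : N * (N + 1) + N * (N - 1) = 2 * (N * N) := by
        obtain ⟨M, rfl⟩ : ∃ M, N = M + 1 := ⟨N - 1, by omega⟩
        simp only [Nat.add_sub_cancel]
        ring
      have h5 : 2 * w (Function.update (finalarithScale s N m) a
          ((N : ℤ) * finalarithScale s N m a)) ≤ 2 * (N ^ (2 * (s.card + 1)) * K) := by
        rw [h1]
        calc N * (N + 1) * w (finalarithScale s N m) + N * (N - 1) *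
              w (finalarithScale s N (Function.update m a (- m a)))
            ≤ N * (N + 1) * (N ^ (2 * s.card) * K) + N * (N - 1) * (N ^ (2 * s.card) * K) :=
              Nat.add_le_add (Nat.mul_le_mul_left _ h2) (Nat.mul_le_mul_left _ h3)
          _ = (N * (N + 1) + N * (N - 1)) * (N ^ (2 * s.card) * K) := by ring
          _ = 2 * (N ^ (2 * (s.card + 1)) * K) := by rw [h4]; ring
      omega
  -- the two bounds for `d`
  have hlow' : ∀ N : ℕ, 1 ≤ N → N ^ (2 * g) ≤ 2 ^ g * d N := by
    intro N hN
    have h := hlow N hN Finset.univ (fun _ => 1)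
    rw [finalarith_scale_univ, hdw N hN, Finset.card_univ, Fintype.card_fin] at h
    apply Nat.le_of_mul_le_mul_right _ hpos
    calc N ^ (2 * g) * W ≤ 2 ^ g * (d N * W) := h
      _ = 2 ^ g * d N * W := by ring
  have hup' : ∀ N : ℕ, 1 ≤ N → d N ≤ K * N ^ (2 * g) := by
    intro N hN
    have h := hup N hN Finset.univ (fun _ => 1) hE1
    rw [finalarith_scale_univ, hdw N hN, Finset.card_univ, Fintype.card_fin] at h
    calc d N = d N * 1 := (mul_one _).symm
      _ ≤ d N * W := Nat.mul_le_mul_left _ hpos
      _ ≤ N ^ (2 * g) * K := h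
      _ = K * N ^ (2 * g) := mul_comm _ _
  intro n hn
  apply le_antisymm
  · apply finalarith_le_of_pow_le _ _ K
    intro k
    have h := hup' (n ^ k) (Nat.one_le_pow _ _ hn)
    rw [hdpow n hn k] at h
    calc d n ^ k ≤ K * (n ^ k) ^ (2 * g) := h
      _ = K * (n ^ (2 * g)) ^ k := by rw [← pow_mul, ← pow_mul, mul_comm k]
  · apply finalarith_le_of_pow_le _ _ (2 ^ g)
    intro k
    have h := hlow' (n ^ k) (Nat.one_le_pow _ _ hn)
    rw [hdpow n hn k] at h
    calc (n ^ (2 * g)) ^ k = (n ^ k) ^ (2 * g) := by rw [← pow_mul, ← pow_mul, mul_comm k]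
      _ ≤ 2 ^ g * d n ^ k := h

end Fermat.Agent.S26
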