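/-
S26 / Alg / SemiRestrict : the pushout lemma for `IsBC`.  SKELETON (helper26), package SEMI-3.
-/
import Fermat.Agent.S26.Alg.Semi

set_option autoImplicit false
set_option linter.style.haveILetI false

open scoped TensorProduct

universe u

namespace Fermat.Agent.S26

/-- a ring hom over `φ : R → R'` as a `φ`-semilinear map -/
def ringSemi {R R' S S' : Type u} [CommRing R] [CommRing R'] [CommRing S] [CommRing S']
    [Algebra R S] [Algebra R' S'] (φ : R →+* R') (Φ : S →+* S')
    (hΦ : ∀ r, Φ (algebraMap R S r) = algebraMap R' S' (φ r)) : S →ₛₗ[φ] S' where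
  toFun := Φ
  map_add' := Φ.map_add
  map_smul' := fun r s => by
    rw [Algebra.smul_def, map_mul, hΦ, Algebra.smul_def]

/-- restriction of scalars of a semilinear map -/
def restrictSemi {R R' S S' : Type u} [CommRing R] [CommRing R'] [CommRing S] [CommRing S']
    [Algebra R S] [Algebra R' S'] (φ : R →+* R') (Φ : S →+* S')
    (hΦ : ∀ r, Φ (algebraMap R S r) = algebraMap R' S' (φ r))
    {M M' : Type u} [AddCommGroup M] [Module S M] [AddCommGroup M'] [Module S' M']
    (g : M →ₛₗ[Φ] M') :
    letI := Module.compHom M (algebraMap R S)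
    letI := Module.compHom M' (algebraMap R' S')
    M →ₛₗ[φ] M' :=
  letI := Module.compHom M (algebraMap R S)
  letI := Module.compHom M' (algebraMap R' S')
  { toFun := g
    map_add' := g.map_add
    map_smul' := fun r m => by
      refine (g.map_smulₛₗ (algebraMap R S r) m).trans ?_
      rw [hΦ]; rfl }

/-- the pushout lemma in the language of type classes. -/
theorem SemiRestrict_aux {R R' S S' M M' : Type*} [CommRing R] [CommRing R'] [CommRing S]
    [CommRing S'] [Algebra R R'] [Algebra R S] [Algebra R' S'] [Algebra S S'] [Algebra R S']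
    [IsScalarTower R R' S'] [IsScalarTower R S S'] [Algebra.IsPushout R R' S S']
    [AddCommGroup M] [Module R M] [Module S M] [IsScalarTower R S M]
    [AddCommGroup M'] [Module R M'] [Module R' M'] [Module S M'] [Module S' M']
    [IsScalarTower R R' M'] [IsScalarTower R' S' M'] [IsScalarTower S S' M']
    [IsScalarTower R S M']
    (g : M →ₗ[S] M') (hg : IsBaseChange S' g) : IsBaseChange R' (g.restrictScalars R) := by
  refine IsBaseChange.of_equiv
    ((Algebra.IsPushout.cancelBaseChange R R' S S' M).symm ≪≫ₗ hg.equiv.restrictScalars R') ?_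
  intro x
  simp [hg.equiv_tmul]

/-- **Pushout lemma.** Let `R → R'` be a ring hom, `S` an `R`-algebra, `S'` an `R'`-algebra with
`S' = R' ⊗[R] S` (hypothesis `hpush`).  If `g : M → M'` is a base change along `Φ : S → S'`, it is
also a base change along `φ : R → R'` for the restricted module structures. -/
theorem IsBC.restrict {R R' S S' : Type u} [CommRing R] [CommRing R'] [CommRing S] [CommRing S']
    [Algebra R S] [Algebra R' S'] (φ : R →+* R') (Φ : S →+* S')
    (hΦ : ∀ r, Φ (algebraMap R S r) = algebraMap R' S' (φ r))
    (hpush : IsBC φ (ringSemi φ Φ hΦ))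
    {M M' : Type u} [AddCommGroup M] [Module S M] [AddCommGroup M'] [Module S' M']
    (g : M →ₛₗ[Φ] M') (hg : IsBC Φ g) :
    letI := Module.compHom M (algebraMap R S)
    letI := Module.compHom M' (algebraMap R' S')
    IsBC φ (restrictSemi φ Φ hΦ g) := by
  letI iRM : Module R M := Module.compHom M (algebraMap R S)
  letI iR'M' : Module R' M' := Module.compHom M' (algebraMap R' S')
  letI iRR' : Algebra R R' := φ.toAlgebra
  letI iSS' : Algebra S S' := Φ.toAlgebra
  letI iRS' : Algebra R S' :=
    { smul := fun r x => φ r • x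
      algebraMap := (algebraMap R' S').comp φ
      commutes' := fun r x => mul_comm _ _
      smul_def' := fun r x => Algebra.smul_def _ _ }
  letI iRM' : Module R M' := Module.compHom M' φ
  letI iSM' : Module S M' := Module.compHom M' Φ
  haveI t1 : IsScalarTower R R' S' := IsScalarTower.of_algebraMap_eq fun _ => rfl
  haveI t2 : IsScalarTower R S S' := IsScalarTower.of_algebraMap_eq fun r => (hΦ r).symm
  haveI t3 : IsScalarTower R S M := IsScalarTower.of_algebraMap_smul fun _ _ => rfl
  haveI t4 : IsScalarTower R R' M' := IsScalarTower.of_algebraMap_smul fun _ _ => rfl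
  haveI t5 : IsScalarTower R' S' M' := IsScalarTower.of_algebraMap_smul fun _ _ => rfl
  haveI t6 : IsScalarTower S S' M' := IsScalarTower.of_algebraMap_smul fun _ _ => rfl
  haveI t7 : IsScalarTower R S M' := IsScalarTower.of_algebraMap_smul fun r m => by
    show Φ (algebraMap R S r) • m = algebraMap R' S' (φ r) • m
    rw [hΦ]
  haveI t8 : Algebra.IsPushout R R' S S' := ⟨hpush⟩
  exact SemiRestrict_aux (R := R) (R' := R') (semiToLin Φ g) hg

end Fermat.Agent.S26
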