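/-
S26 / Alg / InvTensor (ALG-5) : `N ⊗ Q ≅ Q` for `N` invertible and `Q` of finite length.
-/
import Fermat.Agent.S26.Curve.CohDefs

set_option autoImplicit false

open scoped TensorProduct

universe u

namespace Fermat.Agent.S26

/-- abstract form: `Q` is a module over an `S`-algebra `A` with trivial Picard group. -/
theorem invTensor_of_algebra (S N Q A : Type u) [CommRing S] [AddCommGroup N] [Module S N]
    [Module.Invertible S N] [AddCommGroup Q] [Module S Q] [CommRing A] [Algebra S A]
    [Module A Q] [IsScalarTower S A Q] [Finite (MaximalSpectrum A)] :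
    Nonempty (N ⊗[S] Q ≃ₗ[S] Q) := by
  have hfree : Module.Free A (A ⊗[S] N) := inferInstance
  obtain ⟨e⟩ := (Module.Invertible.free_iff_linearEquiv (R := A) (M := A ⊗[S] N)).1 hfree
  let e1 : Q ⊗[A] (A ⊗[S] N) ≃ₗ[A] Q ⊗[S] N :=
    TensorProduct.AlgebraTensorModule.cancelBaseChange S A A Q N
  let e2 : Q ⊗[A] (A ⊗[S] N) ≃ₗ[A] Q ⊗[A] A := TensorProduct.congr (LinearEquiv.refl A Q) e
  let e3 : Q ⊗[A] A ≃ₗ[A] Q := TensorProduct.rid A Q
  exact ⟨TensorProduct.comm S N Q ≪≫ₗ (e1.symm ≪≫ₗ e2 ≪≫ₗ e3).restrictScalars S⟩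

theorem nonempty_tensor_equiv_of_invertible (κ S N Q : Type u) [Field κ] [CommRing S] [Algebra κ S]
    [AddCommGroup N] [Module S N] [Module.Invertible S N] [AddCommGroup Q] [Module S Q]
    (hQ : FinOver κ S Q) : Nonempty (N ⊗[S] Q ≃ₗ[S] Q) := by
  let _ : Module κ Q := Module.compHom Q (algebraMap κ S)
  have : IsScalarTower κ S Q := ⟨fun a s x => by
    show (a • s) • x = (algebraMap κ S a) • (s • x)
    rw [Algebra.smul_def, mul_smul]⟩
  have : Module.Finite κ Q := hQ
  let _ : Module (S ⧸ Module.annihilator S Q) Q := Module.quotientAnnihilator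
  have : IsScalarTower S (S ⧸ Module.annihilator S Q) Q := ⟨fun s a x => by
    obtain ⟨a, rfl⟩ := Ideal.Quotient.mk_surjective a
    show (Ideal.Quotient.mk _ (s • a)) • x = s • (Ideal.Quotient.mk _ a • x)
    exact mul_smul s a x⟩
  -- `A = S / Ann Q` is finite over `κ`
  let f : S →ₐ[κ] Module.End κ Q := Algebra.lsmul κ κ Q
  have hker : ∀ a : S, a ∈ Module.annihilator S Q → f a = 0 := by
    intro a ha
    ext x
    exact Module.mem_annihilator.1 ha x
  let g : (S ⧸ Module.annihilator S Q) →ₐ[κ] Module.End κ Q :=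
    Ideal.Quotient.liftₐ (Module.annihilator S Q) f hker
  have hg : Function.Injective g := by
    rw [injective_iff_map_eq_zero]
    intro a ha
    obtain ⟨a, rfl⟩ := Ideal.Quotient.mk_surjective a
    rw [Ideal.Quotient.eq_zero_iff_mem, Module.mem_annihilator]
    intro x
    have : f a = 0 := ha
    exact LinearMap.congr_fun this x
  have : Module.Finite κ (S ⧸ Module.annihilator S Q) :=
    Module.Finite.of_injective g.toLinearMap hg
  have : IsArtinianRing (S ⧸ Module.annihilator S Q) := IsArtinianRing.of_finite κ _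
  exact invTensor_of_algebra S N Q (S ⧸ Module.annihilator S Q)

end Fermat.Agent.S26
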