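import Mathlib

/-!
# S26 / ALG-4 : a surjection between invertible modules is bijective
-/

set_option autoImplicit false

open scoped TensorProduct

universe u

namespace Fermat.Agent.S26

theorem bijective_of_surjective_of_invertible (S M N : Type u) [CommRing S] [AddCommGroup M] [Module S M]
    [AddCommGroup N] [Module S N] [Module.Invertible S M] [Module.Invertible S N]
    (f : M →ₗ[S] N) (hf : Function.Surjective f) : Function.Bijective f :=
  Module.Invertible.bijective_of_surjective hf

end Fermat.Agent.S26
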