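import Mathlib

/-!
# S26 / ALG-7 + ALG-6 : transcendence degree of tensor products and of composita
-/

set_option autoImplicit false

open scoped TensorProduct

universe u

namespace Fermat.Agent.S26

/-- transport of algebraicity over `K[X]` along an injective algebra map. -/
theorem TrdegTensor_isAlgebraic_map {K A E : Type*} [CommRing K] [CommRing A] [CommRing E]
    [Algebra K A] [Algebra K E] (g : A →ₐ[K] E) (hg : Function.Injective g) {X : Set A} {T : Set E}
    (hXT : g '' X ⊆ T) {a : A} (ha : IsAlgebraic (Algebra.adjoin K X) a) :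
    IsAlgebraic (Algebra.adjoin K T) (g a) := by
  have hmem : ∀ z : Algebra.adjoin K X, (g.comp (Algebra.adjoin K X).val) z ∈ Algebra.adjoin K T := by
    intro z
    have h1 : (Algebra.adjoin K X).map g ≤ Algebra.adjoin K T := by
      rw [AlgHom.map_adjoin]
      exact Algebra.adjoin_mono hXT
    exact h1 ⟨z, z.2, rfl⟩
  let f : Algebra.adjoin K X →ₐ[K] Algebra.adjoin K T :=
    (g.comp (Algebra.adjoin K X).val).codRestrict _ hmem
  refine IsAlgebraic.ringHom_of_comp_eq f g ha ?_ ?_
  · intro z z' h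
    apply Subtype.ext
    apply hg
    exact congrArg Subtype.val h
  · ext z
    rfl

theorem trdeg_tensorProduct_le (K : Type u) [Field K] (A B : Type u) [CommRing A] [IsDomain A]
    [Algebra K A] [CommRing B] [IsDomain B] [Algebra K B] [IsDomain (A ⊗[K] B)] :
    Algebra.trdeg K (A ⊗[K] B) ≤ Algebra.trdeg K A + Algebra.trdeg K B := by
  obtain ⟨ιA, x, hx⟩ := exists_isTranscendenceBasis' K A
  obtain ⟨ιB, y, hy⟩ := exists_isTranscendenceBasis' K B
  rw [← hx.cardinalMk_eq_trdeg, ← hy.cardinalMk_eq_trdeg]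
  set T : Set (A ⊗[K] B) := Set.range (fun i => x i ⊗ₜ[K] (1 : B)) ∪
    Set.range (fun i => (1 : A) ⊗ₜ[K] y i) with hT
  have halg : Algebra.IsAlgebraic (Algebra.adjoin K T) (A ⊗[K] B) := by
    constructor
    intro z
    induction z using TensorProduct.induction_on with
    | zero => exact isAlgebraic_zero
    | tmul a b =>
      have h1 : IsAlgebraic (Algebra.adjoin K T) (a ⊗ₜ[K] (1 : B)) :=
        TrdegTensor_isAlgebraic_map (Algebra.TensorProduct.includeLeft : A →ₐ[K] A ⊗[K] B)
          (Algebra.TensorProduct.includeLeft_injective (algebraMap K B).injective)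
          (X := Set.range x) (by
            rintro _ ⟨_, ⟨i, rfl⟩, rfl⟩
            exact Or.inl ⟨i, rfl⟩) (hx.isAlgebraic.isAlgebraic a)
      have h2 : IsAlgebraic (Algebra.adjoin K T) ((1 : A) ⊗ₜ[K] b) :=
        TrdegTensor_isAlgebraic_map (Algebra.TensorProduct.includeRight : B →ₐ[K] A ⊗[K] B)
          (Algebra.TensorProduct.includeRight_injective (algebraMap K A).injective)
          (X := Set.range y) (by
            rintro _ ⟨_, ⟨i, rfl⟩, rfl⟩
            exact Or.inr ⟨i, rfl⟩) (hy.isAlgebraic.isAlgebraic b)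
      have h3 : a ⊗ₜ[K] b = (a ⊗ₜ[K] (1 : B)) * ((1 : A) ⊗ₜ[K] b) := by simp
      rw [h3]
      exact h1.mul h2
    | add z w hz hw => exact hz.add hw
  calc Algebra.trdeg K (A ⊗[K] B) ≤ Cardinal.mk T := Algebra.IsAlgebraic.trdeg_le_cardinalMk K T
    _ ≤ Cardinal.mk (Set.range (fun i => x i ⊗ₜ[K] (1 : B))) +
        Cardinal.mk (Set.range (fun i => (1 : A) ⊗ₜ[K] y i)) := Cardinal.mk_union_le _ _
    _ ≤ Cardinal.mk ιA + Cardinal.mk ιB := add_le_add Cardinal.mk_range_le Cardinal.mk_range_le

/-- cardinality of a finite union. -/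
theorem TrdegTensor_mk_biUnion_le {α : Type u} {ι : Type} (T : ι → Set α) (s : Finset ι) (c : ℕ)
    (h : ∀ i ∈ s, Cardinal.mk (T i) ≤ c) : Cardinal.mk (⋃ i ∈ s, T i : Set α) ≤ (s.card * c : ℕ) := by
  classical
  induction s using Finset.induction_on with
  | empty => simp
  | insert a s ha ih =>
    rw [Finset.set_biUnion_insert, Finset.card_insert_of_notMem ha]
    refine (Cardinal.mk_union_le _ _).trans ?_
    have h1 := h a (Finset.mem_insert_self a s)
    have h2 := ih fun i hi => h i (Finset.mem_insert_of_mem hi)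
    calc Cardinal.mk (T a) + Cardinal.mk (⋃ i ∈ s, T i : Set α)
        ≤ (c : Cardinal) + ((s.card * c : ℕ) : Cardinal) := add_le_add h1 h2
      _ = (((s.card + 1) * c : ℕ) : Cardinal) := by
          push_cast
          ring

theorem trdeg_adjoin_iUnion_le (K : Type u) [Field K] (Φ : Type u) [Field Φ] [Algebra K Φ]
    {ι : Type} [Finite ι] (F : ι → Type u) [∀ i, Field (F i)] [∀ i, Algebra K (F i)]
    (j : ∀ i, F i →ₐ[K] Φ) (s : Finset ι) (c : ℕ) (h : ∀ i ∈ s, Algebra.trdeg K (F i) ≤ c) :
    Algebra.trdeg K (IntermediateField.adjoin K (⋃ i ∈ s, Set.range (j i))) ≤ (s.card * c : ℕ) := by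
  set E := IntermediateField.adjoin K (⋃ i ∈ s, Set.range (j i)) with hE
  choose κ x hx using fun i => exists_isTranscendenceBasis' K (F i)
  -- the images of the transcendence bases, inside `E`
  let T' : ι → Set E := fun i => {e : E | ∃ a : κ i, (e : Φ) = j i (x i a)}
  have hT' : ∀ i, Cardinal.mk (T' i) ≤ Cardinal.mk (κ i) := by
    intro i
    refine Cardinal.mk_le_of_injective (f := fun e : T' i => e.2.choose) ?_
    intro e e' hee
    apply Subtype.ext
    apply Subtype.ext
    rw [e.2.choose_spec, e'.2.choose_spec]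
    exact congrArg (fun a => j i (x i a)) hee
  set T : Set E := ⋃ i ∈ s, T' i with hT
  have hmemE : ∀ i ∈ s, ∀ b : F i, j i b ∈ E := fun i hi b =>
    IntermediateField.subset_adjoin K _ (Set.mem_biUnion hi ⟨b, rfl⟩)
  have hgen : ∀ i (hi : i ∈ s) (b : F i),
      IsAlgebraic (Algebra.adjoin K T) (⟨j i b, hmemE i hi b⟩ : E) := by
    intro i hi b
    exact TrdegTensor_isAlgebraic_map ((j i).codRestrict E.toSubalgebra (hmemE i hi))
      (fun b b' hbb => (j i).injective (congrArg Subtype.val hbb)) (X := Set.range (x i)) (by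
        rintro _ ⟨_, ⟨a, rfl⟩, rfl⟩
        exact Set.mem_biUnion hi ⟨a, rfl⟩) ((hx i).isAlgebraic.isAlgebraic b)
  have halg : Algebra.IsAlgebraic (Algebra.adjoin K T) E := by
    constructor
    rintro ⟨z, hz⟩
    induction hz using IntermediateField.adjoin_induction with
    | mem z hz =>
      obtain ⟨i, hi, b, rfl⟩ := Set.mem_iUnion₂.1 hz
      exact hgen i hi b
    | algebraMap r =>
      exact isAlgebraic_algebraMap (R := Algebra.adjoin K T) (A := E)
        (algebraMap K (Algebra.adjoin K T) r)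
    | add z w hz hw h1 h2 => exact h1.add h2
    | inv z hz h1 => exact h1.inv
    | mul z w hz hw h1 h2 => exact h1.mul h2
  refine (Algebra.IsAlgebraic.trdeg_le_cardinalMk K T).trans ?_
  refine TrdegTensor_mk_biUnion_le T' s c fun i hi => (hT' i).trans ?_
  rw [(hx i).cardinalMk_eq_trdeg]
  exact h i hi

end Fermat.Agent.S26
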