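/-
S26 / Alg / FreeComp : a compositum of the right transcendence degree is free.
-/
import Fermat.Agent.S26.AV.Deg
import Fermat.Agent.S26.Alg.Trdeg
import Fermat.Agent.S26.Alg.TrdegTensor
import Fermat.Agent.S27.B.TensorDomain

set_option autoImplicit false

open scoped TensorProduct

universe u

namespace Fermat.Agent.S26

variable {K : Type u} [Field K] [IsAlgClosed K]

omit [IsAlgClosed K] in
/-- elements of the compositum are fractions of elements of the image of the tensor product. -/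
theorem freeComp_gen {F L Φ : Type u} [Field F] [Algebra K F] [Field L] [Algebra K L] [Field Φ]
    [Algebra K Φ] (j₁ : F →ₐ[K] Φ) (j₂ : L →ₐ[K] Φ) {z : Φ}
    (hz : z ∈ IntermediateField.adjoin K (Set.range j₁ ∪ Set.range j₂)) :
    ∃ b c : F ⊗[K] L, Algebra.TensorProduct.productMap j₁ j₂ c ≠ 0 ∧
      z * Algebra.TensorProduct.productMap j₁ j₂ c = Algebra.TensorProduct.productMap j₁ j₂ b := by
  obtain ⟨r, hr, s, hs, rfl⟩ := IntermediateField.mem_adjoin_iff_div.1 hz
  have hadj : Algebra.adjoin K (Set.range j₁ ∪ Set.range j₂)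
      = (Algebra.TensorProduct.productMap j₁ j₂).range := by
    rw [Algebra.TensorProduct.productMap_range, Algebra.adjoin_union, ← AlgHom.coe_range,
      ← AlgHom.coe_range, Algebra.adjoin_eq, Algebra.adjoin_eq]
  rw [hadj] at hr hs
  obtain ⟨b, rfl⟩ := hr
  obtain ⟨c, rfl⟩ := hs
  by_cases hc : Algebra.TensorProduct.productMap j₁ j₂ c = 0
  · refine ⟨0, 1, by rw [map_one]; exact one_ne_zero, ?_⟩
    have hc' : (Algebra.TensorProduct.productMap j₁ j₂).toRingHom c = 0 := hc
    rw [hc', div_zero, zero_mul, map_zero]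
  · exact ⟨b, c, hc, div_mul_cancel₀ _ hc⟩

omit [IsAlgClosed K] in
/-- `Φ` is the fraction field of `T ⧸ ker π` as soon as every element of `Φ` is a fraction. -/
theorem freeComp_trdeg_quot {T Φ : Type u} [CommRing T] [Algebra K T] [Field Φ] [Algebra K Φ]
    (π : T →ₐ[K] Φ) (hgen : ∀ z : Φ, ∃ b c : T, π c ≠ 0 ∧ z * π c = π b) :
    Algebra.trdeg K Φ = Algebra.trdeg K (T ⧸ RingHom.ker π) := by
  have hprime : (RingHom.ker π).IsPrime := RingHom.ker_isPrime π
  have hdom : IsDomain (T ⧸ RingHom.ker π) := Ideal.Quotient.isDomain _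
  let φ : (T ⧸ RingHom.ker π) →ₐ[K] Φ := Ideal.kerLiftAlg π
  have hφ : ∀ t : T, φ (Ideal.Quotient.mk _ t) = π t := fun t => Ideal.kerLiftAlg_mk π t
  have hinj : Function.Injective φ := Ideal.kerLiftAlg_injective π
  let _ : Algebra (T ⧸ RingHom.ker π) Φ := φ.toRingHom.toAlgebra
  have htower : IsScalarTower K (T ⧸ RingHom.ker π) Φ :=
    IsScalarTower.of_algebraMap_eq fun a => (φ.commutes a).symm
  have hfs : FaithfulSMul (T ⧸ RingHom.ker π) Φ :=
    (faithfulSMul_iff_algebraMap_injective _ _).mpr hinj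
  have hfr : IsFractionRing (T ⧸ RingHom.ker π) Φ := by
    refine IsFractionRing.of_field _ _ fun z => ?_
    obtain ⟨b, c, hc, hz⟩ := hgen z
    refine ⟨Ideal.Quotient.mk _ b, Ideal.Quotient.mk _ c, ?_⟩
    change z = φ (Ideal.Quotient.mk _ b) / φ (Ideal.Quotient.mk _ c)
    rw [hφ, hφ, eq_div_iff hc, hz]
  exact trdeg_eq_of_isFractionRing K (T ⧸ RingHom.ker π) Φ

theorem isFreeComp_of_trdeg {F Φ : Type u} [Field F] [Algebra K F] [Field Φ] [Algebra K Φ]
    (i₁ : F →ₐ[K] Φ) (L : IntermediateField K Φ) (a b : ℕ) (hF : Algebra.trdeg K F ≤ a)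
    (hL : Algebra.trdeg K L ≤ b) (hΦ : Algebra.trdeg K Φ = (a + b : ℕ))
    (hgen : IntermediateField.adjoin K (Set.range i₁ ∪ (L : Set Φ)) = ⊤) :
    IsFreeComp i₁ L.val := by
  have hdom : IsDomain (F ⊗[K] L) := S27.isDomain_tensorProduct_of_isAlgClosed K F L
  have hg : ∀ z : Φ, ∃ b c : F ⊗[K] L, Algebra.TensorProduct.productMap i₁ L.val c ≠ 0 ∧
      z * Algebra.TensorProduct.productMap i₁ L.val c
        = Algebra.TensorProduct.productMap i₁ L.val b := by
    intro z
    apply freeComp_gen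
    have hr : Set.range L.val = (L : Set Φ) := by
      ext x
      constructor
      · rintro ⟨y, rfl⟩
        exact y.2
      · intro hx
        exact ⟨⟨x, hx⟩, rfl⟩
    rw [hr, hgen]
    exact IntermediateField.mem_top
  refine ⟨?_, hg⟩
  have hT : Algebra.trdeg K (F ⊗[K] L) ≤ (a + b : ℕ) := by
    refine (trdeg_tensorProduct_le K F L).trans ?_
    push_cast
    exact add_le_add hF hL
  have hfin : Algebra.trdeg K (F ⊗[K] L) < Cardinal.aleph0 :=
    hT.trans_lt (Cardinal.natCast_lt_aleph0)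
  have hprime : (RingHom.ker (Algebra.TensorProduct.productMap i₁ L.val)).IsPrime :=
    RingHom.ker_isPrime _
  have hker : RingHom.ker (Algebra.TensorProduct.productMap i₁ L.val) = ⊥ := by
    by_contra hne
    have h1 := trdeg_quotient_lt K (F ⊗[K] L) hfin _ hne
    have h2 := freeComp_trdeg_quot (Algebra.TensorProduct.productMap i₁ L.val) hg
    have h3 : Algebra.trdeg K Φ < Algebra.trdeg K (F ⊗[K] L) := h2.trans_lt h1
    rw [hΦ] at h3
    exact absurd hT (not_le.2 h3)
  exact (RingHom.injective_iff_ker_eq_bot _).2 hker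

/-- sub-composita of a free compositum are free -/
theorem IsFreeComp.sub {F L L' Φ : Type u} [Field F] [Algebra K F] [Field L] [Algebra K L]
    [Field L'] [Algebra K L'] [Field Φ] [Algebra K Φ] {i₁ : F →ₐ[K] Φ} {i₂ : L →ₐ[K] Φ}
    (h : IsFreeComp i₁ i₂) (i : L' →ₐ[K] L) :
    ∃ (Φ' : IntermediateField K Φ) (k₁ : F →ₐ[K] Φ') (k₂ : L' →ₐ[K] Φ'),
      Φ'.val.comp k₁ = i₁ ∧ Φ'.val.comp k₂ = i₂.comp i ∧ IsFreeComp k₁ k₂ := by
  let Φ' : IntermediateField K Φ :=
    IntermediateField.adjoin K (Set.range i₁ ∪ Set.range (i₂.comp i))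
  have h1 : ∀ x, i₁ x ∈ Φ' := fun x =>
    IntermediateField.subset_adjoin K _ (Or.inl ⟨x, rfl⟩)
  have h2 : ∀ x, (i₂.comp i) x ∈ Φ' := fun x =>
    IntermediateField.subset_adjoin K _ (Or.inr ⟨x, rfl⟩)
  let k₁ : F →ₐ[K] Φ' := i₁.codRestrict Φ'.toSubalgebra h1
  let k₂ : L' →ₐ[K] Φ' := (i₂.comp i).codRestrict Φ'.toSubalgebra h2
  have e1 : Φ'.val.comp k₁ = i₁ := AlgHom.ext fun _ => rfl
  have e2 : Φ'.val.comp k₂ = i₂.comp i := AlgHom.ext fun _ => rfl
  have e3 : Φ'.val.comp (Algebra.TensorProduct.productMap k₁ k₂)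
      = Algebra.TensorProduct.productMap i₁ (i₂.comp i) := by
    apply Algebra.TensorProduct.ext'
    intro x y
    simp only [AlgHom.comp_apply, Algebra.TensorProduct.productMap_apply_tmul, map_mul]
    rfl
  have e4 : Algebra.TensorProduct.productMap i₁ (i₂.comp i)
      = (Algebra.TensorProduct.productMap i₁ i₂).comp
        (Algebra.TensorProduct.map (AlgHom.id K F) i) := by
    apply Algebra.TensorProduct.ext'
    intro x y
    simp only [AlgHom.comp_apply, Algebra.TensorProduct.productMap_apply_tmul,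
      Algebra.TensorProduct.map_tmul, AlgHom.id_apply]
  have e3' : ∀ t, ((Algebra.TensorProduct.productMap k₁ k₂ t : Φ') : Φ)
      = Algebra.TensorProduct.productMap i₁ (i₂.comp i) t := fun t => AlgHom.congr_fun e3 t
  refine ⟨Φ', k₁, k₂, e1, e2, ?_, ?_⟩
  · have hinj : Function.Injective (Algebra.TensorProduct.map (AlgHom.id K F) i) := by
      have := Module.Flat.lTensor_preserves_injective_linearMap (M := F) i.toLinearMap
        i.toRingHom.injective
      exact this
    intro s t hst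
    have h3 : Algebra.TensorProduct.productMap i₁ (i₂.comp i) s
        = Algebra.TensorProduct.productMap i₁ (i₂.comp i) t := by
      rw [← e3', ← e3', hst]
    rw [e4] at h3
    exact hinj (h.inj h3)
  · intro z
    obtain ⟨b, c, hc, hz⟩ := freeComp_gen i₁ (i₂.comp i) z.2
    refine ⟨b, c, ?_, ?_⟩
    · intro h0
      apply hc
      rw [← e3', h0]
      rfl
    · apply Subtype.ext
      change (z : Φ) * ((Algebra.TensorProduct.productMap k₁ k₂ c : Φ') : Φ) = _
      rw [e3', e3', hz]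

theorem IsFreeComp.trdeg_le {F L Φ : Type u} [Field F] [Algebra K F] [Field L] [Algebra K L]
    [Field Φ] [Algebra K Φ] {i₁ : F →ₐ[K] Φ} {i₂ : L →ₐ[K] Φ} (h : IsFreeComp i₁ i₂) :
    Algebra.trdeg K Φ ≤ Algebra.trdeg K F + Algebra.trdeg K L := by
  have hdom : IsDomain (F ⊗[K] L) := S27.isDomain_tensorProduct_of_isAlgClosed K F L
  rw [freeComp_trdeg_quot _ h.gen]
  refine le_trans ?_ (trdeg_tensorProduct_le K F L)
  exact trdeg_le_of_surjective (Ideal.Quotient.mkₐ K _) Ideal.Quotient.mk_surjective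

end Fermat.Agent.S26
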