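/-
S26 / Alg / InvPair : a criterion for invertibility of a module (rank one Morita context).
-/
import Mathlib

set_option autoImplicit false

namespace Fermat.Agent.S26

variable {S : Type*} [CommRing S] {M N : Type*} [AddCommGroup M] [Module S M] [AddCommGroup N]
  [Module S N]

open scoped TensorProduct in
theorem invpair_key (μ : N →ₗ[S] M →ₗ[S] S)
    (h1 : ∀ (n n' : N) (m : M), μ n m • n' = μ n' m • n)
    (h2 : ∀ (n : N) (m m' : M), μ n m • m' = μ n m' • m) (a : N) (b : M) (z : N ⊗[S] M) :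
    μ a b • z = TensorProduct.lift μ z • (a ⊗ₜ[S] b) := by
  induction z using TensorProduct.induction_on with
  | zero => simp
  | tmul n m =>
    rw [TensorProduct.lift.tmul, TensorProduct.smul_tmul', h1 a n b, TensorProduct.smul_tmul,
      h2 n b m, TensorProduct.tmul_smul]
  | add x y hx hy => rw [smul_add, hx, hy, map_add, add_smul]

/-- **INV-1**.  Let `μ : N × M → S` be bilinear with `μ(n,m) n' = μ(n',m) n`, `μ(n,m) m' = μ(n,m') m`, whose
values generate the unit ideal.  Then `N ⊗ M → S` is bijective.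
PROOF.  Surjective: clear.  Injective: `1 = ∑ₖ cₖ μ(aₖ, bₖ)`.  For `z = ∑ⱼ nⱼ ⊗ mⱼ`:
`μ(a,b) (n ⊗ m) = (μ(a,b) n) ⊗ m = (μ(n,b) a) ⊗ m = a ⊗ (μ(n,b) m) = a ⊗ (μ(n,m) b) = μ(n,m) (a ⊗ b)`, so
`μ(a,b) z = μ̃(z) (a ⊗ b)` for all `z` (induction on `z`) and `z = ∑ₖ cₖ μ̃(z) (aₖ ⊗ bₖ) = 0` if `μ̃(z) = 0`. -/
theorem invPair_bijective (μ : N →ₗ[S] M →ₗ[S] S)
    (h1 : ∀ (n n' : N) (m : M), μ n m • n' = μ n' m • n)
    (h2 : ∀ (n : N) (m m' : M), μ n m • m' = μ n m' • m)
    (h3 : Ideal.span {s : S | ∃ n m, μ n m = s} = ⊤) :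
    Function.Bijective (TensorProduct.lift μ) := by
  constructor
  · rw [injective_iff_map_eq_zero]
    intro z hz
    have hle : Ideal.span {s : S | ∃ n m, μ n m = s} ≤ Ideal.torsionOf S _ z := by
      rw [Ideal.span_le]
      rintro _ ⟨a, b, rfl⟩
      show μ a b ∈ Ideal.torsionOf S _ z
      rw [Ideal.mem_torsionOf_iff, invpair_key μ h1 h2, hz, zero_smul]
    have h1' : (1 : S) ∈ Ideal.torsionOf S _ z := hle (h3 ▸ Submodule.mem_top)
    rwa [Ideal.mem_torsionOf_iff, one_smul] at h1'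
  · rw [← LinearMap.range_eq_top, eq_top_iff]
    have hle : Ideal.span {s : S | ∃ n m, μ n m = s} ≤ LinearMap.range (TensorProduct.lift μ) := by
      rw [Ideal.span_le]
      rintro _ ⟨a, b, rfl⟩
      exact ⟨TensorProduct.tmul S a b, TensorProduct.lift.tmul a b⟩
    rwa [h3] at hle

/-- **INV-2** (`Module.Invertible.right` / `.left` applied to `LinearEquiv.ofBijective`) -/
theorem invPair_invertible (μ : N →ₗ[S] M →ₗ[S] S)
    (h1 : ∀ (n n' : N) (m : M), μ n m • n' = μ n' m • n)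
    (h2 : ∀ (n : N) (m m' : M), μ n m • m' = μ n m' • m)
    (h3 : Ideal.span {s : S | ∃ n m, μ n m = s} = ⊤) : Module.Invertible S M :=
  Module.Invertible.right (LinearEquiv.ofBijective _ (invPair_bijective μ h1 h2 h3))

/-- **INV-3** base change is spanning.  `φ : S → S'`, semilinear maps `bM`, `bN` compatible with the pairings.
PROOF.  `1 = ∑ₖ cₖ μ(aₖ,bₖ)` in `S`, so `1 = ∑ₖ φ(cₖ) μ'(bN aₖ, bM bₖ)` in `S'` and
`m' = ∑ₖ φ(cₖ) μ'(bN aₖ, bM bₖ) m' = ∑ₖ φ(cₖ) μ'(bN aₖ, m') bM bₖ`. -/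
theorem invPair_span {S' : Type*} [CommRing S'] {M' N' : Type*} [AddCommGroup M'] [Module S' M']
    [AddCommGroup N'] [Module S' N'] (φ : S →+* S') (μ : N →ₗ[S] M →ₗ[S] S)
    (μ' : N' →ₗ[S'] M' →ₗ[S'] S') (bM : M →ₛₗ[φ] M') (bN : N →ₛₗ[φ] N')
    (hb : ∀ n m, μ' (bN n) (bM m) = φ (μ n m))
    (h2 : ∀ (n : N') (m m' : M'), μ' n m • m' = μ' n m' • m)
    (h3 : Ideal.span {s : S | ∃ n m, μ n m = s} = ⊤) :
    Submodule.span S' (Set.range bM) = ⊤ := by
  let J : Ideal S' :=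
    { carrier := {s | ∀ m' : M', s • m' ∈ Submodule.span S' (Set.range bM)}
      add_mem' := fun {a b} ha hb m' => by
        rw [add_smul]
        exact Submodule.add_mem _ (ha m') (hb m')
      zero_mem' := fun m' => by
        rw [zero_smul]
        exact Submodule.zero_mem _
      smul_mem' := fun c a ha m' => by
        rw [smul_eq_mul, mul_smul]
        exact Submodule.smul_mem _ _ (ha m') }
  have hle : Ideal.span {s : S | ∃ n m, μ n m = s} ≤ J.comap φ := by
    rw [Ideal.span_le]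
    rintro _ ⟨a, b, rfl⟩
    show ∀ m' : M', φ (μ a b) • m' ∈ Submodule.span S' (Set.range bM)
    intro m'
    rw [← hb, h2]
    exact Submodule.smul_mem _ _ (Submodule.subset_span ⟨b, rfl⟩)
  have h1 : (1 : S) ∈ J.comap φ := hle (h3 ▸ Submodule.mem_top)
  have h1' : ∀ m' : M', φ 1 • m' ∈ Submodule.span S' (Set.range bM) := h1
  rw [eq_top_iff]
  intro m' _
  have := h1' m'
  rwa [map_one, one_smul] at this

end Fermat.Agent.S26
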