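import Mathlib
import Fermat.Agent.S26.Alg.Trdeg

/-!
# S26 / T7b : a prime of transcendence degree `g - 1` is locally principal at a point with
`g`-dimensional cotangent space
-/

set_option autoImplicit false

open scoped TensorProduct

universe u

namespace Fermat.Agent.S26

/-- Nakayama, non local form: `N ≤ N' + I N`, `N` f.g. `⟹` `r N ≤ N'` for some `r ≡ 1 mod I`. -/
theorem T7_nakayama {R : Type*} [CommRing R] (I N N' : Ideal R) (hN : N.FG)
    (h : N ≤ N' ⊔ I * N) : ∃ r : R, r - 1 ∈ I ∧ ∀ x ∈ N, r * x ∈ N' := by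
  have hfg : (Submodule.map N'.mkQ N).FG := Submodule.FG.map _ hN
  have hle : Submodule.map N'.mkQ N ≤ I • Submodule.map N'.mkQ N := by
    rintro _ ⟨x, hx, rfl⟩
    obtain ⟨a, ha, y, hy, rfl⟩ := Submodule.mem_sup.1 (h hx)
    have ha0 : N'.mkQ a = 0 := (Submodule.Quotient.mk_eq_zero N').2 ha
    rw [map_add, ha0, zero_add, ← Submodule.map_smul'']
    exact ⟨y, hy, rfl⟩
  obtain ⟨r, hr, hr0⟩ :=
    Submodule.exists_sub_one_mem_and_smul_eq_zero_of_fg_of_le_smul I _ hfg hle
  refine ⟨r, hr, fun x hx => ?_⟩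
  have := hr0 _ ⟨x, hx, rfl⟩
  rw [← map_smul, Submodule.mkQ_apply, Submodule.Quotient.mk_eq_zero] at this
  exact this

/-- if every element of the domain `D` is a fraction of elements of the image of `f`, then `D` has
the transcendence degree of the image. -/
theorem T7_trdeg_eq (K A D : Type u) [Field K] [CommRing A] [Algebra K A] [CommRing D] [IsDomain D]
    [Algebra K D] (f : A →ₐ[K] D) (hf : ∀ d : D, ∃ p q : A, f q ≠ 0 ∧ f q * d = f p) :
    Algebra.trdeg K D = Algebra.trdeg K (A ⧸ RingHom.ker f) := by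
  have halg : Algebra.IsAlgebraic f.range D := by
    refine ⟨fun d => ?_⟩
    obtain ⟨p, q, hq, hpq⟩ := hf d
    refine ⟨Polynomial.C (⟨f q, q, rfl⟩ : f.range) * Polynomial.X -
      Polynomial.C (⟨f p, p, rfl⟩ : f.range), ?_, ?_⟩
    · intro h0
      have := congrArg (fun P => Polynomial.coeff P 1) h0
      simp only [Polynomial.coeff_sub, Polynomial.coeff_C_mul, Polynomial.coeff_X_one, mul_one,
        Polynomial.coeff_C_succ, sub_zero, Polynomial.coeff_zero] at this
      exact hq (congrArg Subtype.val this)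
    · simp only [map_sub, map_mul, Polynomial.aeval_C, Polynomial.aeval_X]
      show f q * d - f p = 0
      rw [hpq, sub_self]
  have h1 : FaithfulSMul f.range D := (faithfulSMul_iff_algebraMap_injective f.range D).mpr
    Subtype.val_injective
  have h2 : FaithfulSMul K f.range := (faithfulSMul_iff_algebraMap_injective K f.range).mpr
    (algebraMap K f.range).injective
  have h := trdeg_add_eq K f.range (A := D)
  rw [trdeg_eq_zero (R := f.range) (A := D), add_zero] at h
  rw [← h]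
  exact (Ideal.quotientKerEquivRange f).trdeg_eq.symm

/-- the kernel of `π : K[X₁, …, X_g] → D` is principal if `trdeg D = g - 1` and every element of `D`
is a fraction of elements of the image of `π`. -/
theorem T7_ker_principal (K D : Type u) [Field K] [CommRing D] [IsDomain D] [Algebra K D] (g : ℕ)
    (π : MvPolynomial (Fin g) K →ₐ[K] D) (hπ : ∀ d : D, ∃ p q, π q ≠ 0 ∧ π q * d = π p)
    (htr : Algebra.trdeg K D + 1 = g) :
    ∃ h' : MvPolynomial (Fin g) K, RingHom.ker π = Ideal.span {h'} := by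
  have hRtr : Algebra.trdeg K (MvPolynomial (Fin g) K) = g := by
    rw [MvPolynomial.trdeg_of_isDomain]; simp
  have hprime : (RingHom.ker π).IsPrime := RingHom.ker_isPrime _
  have hne : RingHom.ker π ≠ ⊥ := by
    intro h0
    have hinj : Function.Injective π := (RingHom.injective_iff_ker_eq_bot _).2 h0
    have h1 := trdeg_le_of_injective π hinj
    rw [hRtr, ← htr] at h1
    have h2 : Algebra.trdeg K D < Algebra.trdeg K D + 1 := by
      have h3 : Algebra.trdeg K D < Cardinal.aleph0 :=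
        lt_of_le_of_lt (self_le_add_right _ 1) (by rw [htr]; exact Cardinal.natCast_lt_aleph0)
      obtain ⟨m, hm⟩ := Cardinal.lt_aleph0.1 h3
      rw [hm]
      exact_mod_cast Nat.lt_succ_self m
    exact absurd h1 (not_le.2 h2)
  obtain ⟨h', hh', hp⟩ := hprime.exists_mem_prime_of_ne_bot hne
  refine ⟨h', le_antisymm ?_ ((Ideal.span_singleton_le_iff_mem _).2 hh')⟩
  have hI : (Ideal.span {h'}).IsPrime := (Ideal.span_singleton_prime hp.ne_zero).2 hp
  have hI0 : Ideal.span {h'} ≠ ⊥ := by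
    rw [Ne, Ideal.span_singleton_eq_bot]
    exact hp.ne_zero
  have hle : ∀ a ∈ Ideal.span {h'}, π a = 0 := fun a ha =>
    ((Ideal.span_singleton_le_iff_mem (I := RingHom.ker π)).2 hh') ha
  let π₁ : (MvPolynomial (Fin g) K ⧸ Ideal.span {h'}) →ₐ[K] D := Ideal.Quotient.liftₐ _ π hle
  have hπ₁ : ∀ a, π₁ (Ideal.Quotient.mk _ a) = π a := fun a => rfl
  have hfin : Algebra.trdeg K (MvPolynomial (Fin g) K) < Cardinal.aleph0 := by
    rw [hRtr]; exact Cardinal.natCast_lt_aleph0
  have h1 := trdeg_quotient_lt K (MvPolynomial (Fin g) K) hfin (Ideal.span {h'}) hI0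
  have hker : RingHom.ker π₁ = ⊥ := by
    by_contra hcon
    have hpr : (RingHom.ker π₁).IsPrime := RingHom.ker_isPrime _
    have h2 := trdeg_quotient_lt K (MvPolynomial (Fin g) K ⧸ Ideal.span {h'}) (h1.trans hfin)
      (RingHom.ker π₁) hcon
    have h3 := T7_trdeg_eq K _ D π₁ (fun d => by
      obtain ⟨p, q, hq, hpq⟩ := hπ d
      exact ⟨Ideal.Quotient.mk _ p, Ideal.Quotient.mk _ q, hq, hpq⟩)
    rw [← h3] at h2
    rw [hRtr, ← htr] at h1
    exact absurd (Cardinal.add_one_le_of_lt h2) (not_le.2 h1)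
  intro a ha
  have h4 : Ideal.Quotient.mk (Ideal.span {h'}) a ∈ RingHom.ker π₁ := by
    rw [RingHom.mem_ker]
    exact ha
  rw [hker, Ideal.mem_bot, Ideal.Quotient.eq_zero_iff_mem] at h4
  exact h4

/-- the core of T7 (no localisation): `φ : K[X] → B`, `X_i ↦ x'_i`, the `x'_i` generate the maximal
ideal `n = ker ε` modulo `n²`, every element of `B` is modulo `P` a fraction of elements of the
image of `φ` with denominator not in `n`, and `φ⁻¹ P = (h')`.  Then `P = (φ h')` near `n`. -/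
theorem T7_core (K : Type u) [Field K] (B : Type u) [CommRing B] [Algebra K B] [IsNoetherianRing B]
    (ε : B →ₐ[K] K) (g : ℕ) (x' : Fin g → B) (hx' : ∀ i, ε (x' i) = 0)
    (hgen : RingHom.ker ε ≤ Ideal.span (Set.range x') ⊔ (RingHom.ker ε) ^ 2)
    (P : Ideal B) (hP : P ≤ RingHom.ker ε)
    (hrat : ∀ b : B, ∃ p q : MvPolynomial (Fin g) K, MvPolynomial.eval 0 q ≠ 0 ∧
      MvPolynomial.aeval x' q * b - MvPolynomial.aeval x' p ∈ P)
    (h' : MvPolynomial (Fin g) K)
    (hker : ∀ r : MvPolynomial (Fin g) K, MvPolynomial.aeval x' r ∈ P ↔ h' ∣ r) :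
    ∃ h ∈ P, ∃ s : B, ε s ≠ 0 ∧ ∀ p ∈ P, ∃ b, s * p = b * h := by
  classical
  set n : Ideal B := RingHom.ker ε with hn
  set φ : MvPolynomial (Fin g) K →ₐ[K] B := MvPolynomial.aeval x' with hφ
  have hε : ∀ q, ε (φ q) = MvPolynomial.eval 0 q := by
    intro q
    rw [hφ, MvPolynomial.comp_aeval_apply]
    have h0 : (fun i => ε (x' i)) = 0 := funext hx'
    rw [h0]
    exact DFunLike.congr_fun (MvPolynomial.coe_aeval_eq_eval (0 : Fin g → K)) q
  have hone : ∀ r : B, r - 1 ∈ n → ε r = 1 := by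
    intro r hr
    rw [hn, RingHom.mem_ker, map_sub, map_one, sub_eq_zero] at hr
    exact hr
  -- Nakayama: `s n ⊆ (x')`
  obtain ⟨s, hs1, hs⟩ := T7_nakayama n n (Ideal.span (Set.range x')) (IsNoetherian.noetherian n)
    (by rwa [← pow_two])
  -- common denominators
  have hden : ∀ c : Fin g → B, ∃ q : MvPolynomial (Fin g) K, MvPolynomial.eval 0 q ≠ 0 ∧
      ∀ i, ∃ p : MvPolynomial (Fin g) K, φ q * c i - φ p ∈ P := by
    intro c
    choose pp qq hq hpq using fun i => hrat (c i)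
    refine ⟨∏ j, qq j, ?_, fun i => ⟨pp i * ∏ j ∈ Finset.univ.erase i, qq j, ?_⟩⟩
    · rw [map_prod]
      exact Finset.prod_ne_zero_iff.2 fun j _ => hq j
    · rw [← Finset.mul_prod_erase Finset.univ qq (Finset.mem_univ i), map_mul, map_mul]
      have : φ (qq i) * φ (∏ j ∈ Finset.univ.erase i, qq j) * c i -
          φ (pp i) * φ (∏ j ∈ Finset.univ.erase i, qq j) =
          φ (∏ j ∈ Finset.univ.erase i, qq j) * (φ (qq i) * c i - φ (pp i)) := by ring
      rw [this]
      exact P.mul_mem_left _ (hpq i)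
  have hhP : φ h' ∈ P := (hker h').2 dvd_rfl
  -- the key inclusion
  have hkey : P ≤ Ideal.span {φ h'} ⊔ n * P := by
    intro b hb
    obtain ⟨c, hc⟩ := (Ideal.mem_span_range_iff_exists_fun).1 (hs b (hP hb))
    obtain ⟨Q, hQ, hp⟩ := hden c
    choose pp hpp using hp
    -- `φ Q * s * b = φ R₀ + ∑ u_i x'_i`
    have h1 : φ Q * (s * b) = φ (∑ i, pp i * MvPolynomial.X i) +
        ∑ i, x' i * (φ Q * c i - φ (pp i)) := by
      rw [← hc, Finset.mul_sum, map_sum, ← Finset.sum_add_distrib]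
      refine Finset.sum_congr rfl fun i _ => ?_
      rw [map_mul, hφ, MvPolynomial.aeval_X]
      ring
    have h2 : ∑ i, x' i * (φ Q * c i - φ (pp i)) ∈ n * P :=
      Ideal.sum_mem _ fun i _ => Ideal.mul_mem_mul (RingHom.mem_ker.2 (hx' i)) (hpp i)
    have h3 : φ (∑ i, pp i * MvPolynomial.X i) ∈ P := by
      have : φ (∑ i, pp i * MvPolynomial.X i) =
          φ Q * (s * b) - ∑ i, x' i * (φ Q * c i - φ (pp i)) := by rw [h1]; ring
      rw [this]
      have h2' : ∑ i, x' i * (φ Q * c i - φ (pp i)) ∈ P := (Ideal.mul_le_right : n * P ≤ P) h2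
      exact P.sub_mem (P.mul_mem_left _ (P.mul_mem_left _ hb)) h2'
    obtain ⟨r, hr⟩ := (hker _).1 h3
    have h4 : φ (∑ i, pp i * MvPolynomial.X i) ∈ Ideal.span {φ h'} := by
      rw [hr, map_mul]
      exact Ideal.mul_mem_right _ _ (Ideal.mem_span_singleton_self _)
    have h5 : φ Q * (s * b) ∈ Ideal.span {φ h'} ⊔ n * P := by
      rw [h1]
      exact Ideal.add_mem _ (Ideal.mem_sup_left h4) (Ideal.mem_sup_right h2)
    -- `φ Q * s` acts on `P / n P` as the nonzero scalar `e`
    set e : K := MvPolynomial.eval 0 Q with he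
    have h6 : φ Q * s - algebraMap K B e ∈ n := by
      rw [hn, RingHom.mem_ker, map_sub, map_mul, hε, hone s hs1, mul_one, AlgHom.commutes]
      exact sub_self _
    have h7 : algebraMap K B e * b ∈ Ideal.span {φ h'} ⊔ n * P := by
      have : algebraMap K B e * b = φ Q * (s * b) - (φ Q * s - algebraMap K B e) * b := by ring
      rw [this]
      exact Ideal.sub_mem _ h5 (Ideal.mem_sup_right (Ideal.mul_mem_mul h6 hb))
    have h8 : b = algebraMap K B e⁻¹ * (algebraMap K B e * b) := by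
      rw [← mul_assoc, ← map_mul, inv_mul_cancel₀ hQ, map_one, one_mul]
    rw [h8]
    exact Ideal.mul_mem_left _ _ h7
  obtain ⟨r, hr1, hr⟩ := T7_nakayama n P (Ideal.span {φ h'}) (IsNoetherian.noetherian P) hkey
  refine ⟨φ h', hhP, r, by rw [hone r hr1]; exact one_ne_zero, fun p hp => ?_⟩
  obtain ⟨b, hb⟩ := Ideal.mem_span_singleton'.1 (hr p hp)
  exact ⟨b, hb.symm⟩

/-- the statement of package T7a (successive generic linear projections), used as a black box. -/
def T7aStatement : Prop :=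
  ∀ (K : Type u) [Field K] [IsAlgClosed K] (D : Type u) [CommRing D] [IsDomain D]
    [Algebra K D] [Algebra.FiniteType K D] (ε : D →ₐ[K] K) (g : ℕ)
    (_ : Algebra.trdeg K D < g) (x : Fin g → D) (_ : ∀ i, ε (x i) = 0)
    (_ : RingHom.ker ε ≤ Ideal.span (Set.range x) ⊔ (RingHom.ker ε) ^ 2),
    ∃ x' : Fin g → D, (∀ i, x' i - x i ∈ (RingHom.ker ε) ^ 2) ∧
      ∀ d : D, ∃ p q : MvPolynomial (Fin g) K, MvPolynomial.eval 0 q ≠ 0 ∧
        MvPolynomial.aeval x' q * d = MvPolynomial.aeval x' p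

theorem T7_lt_of_add_one {a : Cardinal.{u}} {g : ℕ} (h : a + 1 = g) : a < g := by
  have h3 : a < Cardinal.aleph0 :=
    lt_of_le_of_lt (self_le_add_right _ 1) (by rw [h]; exact Cardinal.natCast_lt_aleph0)
  obtain ⟨m, rfl⟩ := Cardinal.lt_aleph0.1 h3
  have : m + 1 = g := by exact_mod_cast h
  rw [← this]
  exact_mod_cast Nat.lt_succ_self m

/-- T7 from T7a. -/
theorem t7_of_t7a (H : T7aStatement.{u}) (K : Type u) [Field K] [IsAlgClosed K] (B : Type u)
    [CommRing B] [Algebra K B]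
    [Algebra.FiniteType K B] (ε : B →ₐ[K] K) (g : ℕ) (x : Fin g → B) (hx : ∀ i, ε (x i) = 0)
    (hgen : RingHom.ker ε ≤ Ideal.span (Set.range x) ⊔ (RingHom.ker ε) ^ 2)
    (P : Ideal B) [P.IsPrime] (hP : P ≤ RingHom.ker ε)
    (htr : Algebra.trdeg K (B ⧸ P) + 1 = g) :
    ∃ h ∈ P, ∃ s : B, ε s ≠ 0 ∧ ∀ p ∈ P, ∃ b, s * p = b * h := by
  have hnoeth : IsNoetherianRing B := Algebra.FiniteType.isNoetherianRing K B
  set n : Ideal B := RingHom.ker ε with hn
  let εD : (B ⧸ P) →ₐ[K] K := Ideal.Quotient.liftₐ P ε (fun a ha => hP ha)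
  have hεD : ∀ b, εD (Ideal.Quotient.mk P b) = ε b := fun b => rfl
  have hmk : Function.Surjective (Ideal.Quotient.mk P) := Ideal.Quotient.mk_surjective
  have hnD : RingHom.ker εD = n.map (Ideal.Quotient.mk P) := by
    apply le_antisymm
    · intro d hd
      obtain ⟨b, rfl⟩ := hmk d
      exact Ideal.mem_map_of_mem _ (RingHom.mem_ker.2 ((hεD b).symm.trans (RingHom.mem_ker.1 hd)))
    · rw [Ideal.map_le_iff_le_comap]
      intro b hb
      exact RingHom.mem_ker.2 ((hεD b).trans (RingHom.mem_ker.1 hb))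
  have hgenD : RingHom.ker εD ≤
      Ideal.span (Set.range fun i => Ideal.Quotient.mk P (x i)) ⊔ (RingHom.ker εD) ^ 2 := by
    have hr : (Set.range fun i => Ideal.Quotient.mk P (x i)) =
        (Ideal.Quotient.mk P) '' Set.range x := by
      rw [← Set.range_comp]; rfl
    rw [hnD, ← Ideal.map_pow, hr, ← Ideal.map_span, ← Ideal.map_sup]
    exact Ideal.map_mono hgen
  obtain ⟨xb', hxb', hratD⟩ := H K (B ⧸ P) εD g (T7_lt_of_add_one htr)
    (fun i => Ideal.Quotient.mk P (x i)) (fun i => hx i) hgenD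
  -- lift `xb'`
  have hlift : ∀ i, ∃ y ∈ n ^ 2, Ideal.Quotient.mk P y = xb' i - Ideal.Quotient.mk P (x i) := by
    intro i
    have h1 := hxb' i
    rw [hnD, ← Ideal.map_pow] at h1
    exact (Ideal.mem_map_iff_of_surjective _ hmk).1 h1
  choose y hy hym using hlift
  set x' : Fin g → B := fun i => x i + y i with hx'def
  have hmkx' : ∀ i, Ideal.Quotient.mk P (x' i) = xb' i := by
    intro i
    rw [hx'def]
    simp only [map_add, hym i]
    ring
  have hx' : ∀ i, ε (x' i) = 0 := by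
    intro i
    have h1 : y i ∈ n := Ideal.pow_le_self two_ne_zero (hy i)
    rw [hx'def]
    simp only [map_add, hx i, zero_add]
    exact RingHom.mem_ker.1 h1
  have hgen' : n ≤ Ideal.span (Set.range x') ⊔ n ^ 2 := by
    refine hgen.trans (sup_le ?_ le_sup_right)
    rw [Ideal.span_le]
    rintro _ ⟨i, rfl⟩
    have h1 : x i = x' i - y i := by rw [hx'def]; ring
    rw [h1]
    exact Ideal.sub_mem _ (Ideal.mem_sup_left (Ideal.subset_span ⟨i, rfl⟩))
      (Ideal.mem_sup_right (hy i))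
  have hπφ : ∀ r : MvPolynomial (Fin g) K,
      Ideal.Quotient.mk P (MvPolynomial.aeval x' r) = MvPolynomial.aeval xb' r := by
    intro r
    have h1 := MvPolynomial.comp_aeval_apply (Ideal.Quotient.mkₐ K P) (f := x') r
    have h2 : (fun i => Ideal.Quotient.mkₐ K P (x' i)) = xb' := funext hmkx'
    rw [h2] at h1
    exact h1
  have hεπ : ∀ q : MvPolynomial (Fin g) K,
      εD (MvPolynomial.aeval xb' q) = MvPolynomial.eval 0 q := by
    intro q
    rw [MvPolynomial.comp_aeval_apply]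
    have h0 : (fun i => εD (xb' i)) = 0 := funext fun i => by
      rw [← hmkx' i, hεD, hx' i]; rfl
    rw [h0]
    exact DFunLike.congr_fun (MvPolynomial.coe_aeval_eq_eval (0 : Fin g → K)) q
  obtain ⟨h', hh'⟩ := T7_ker_principal K (B ⧸ P) g (MvPolynomial.aeval xb') (fun d => by
    obtain ⟨p, q, hq, hpq⟩ := hratD d
    refine ⟨p, q, fun h0 => hq ?_, hpq⟩
    rw [← hεπ, h0, map_zero]) htr
  refine T7_core K B ε g x' hx' hgen' P hP (fun b => ?_) h' (fun r => ?_)
  · obtain ⟨p, q, hq, hpq⟩ := hratD (Ideal.Quotient.mk P b)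
    refine ⟨p, q, hq, ?_⟩
    rw [← Ideal.Quotient.eq_zero_iff_mem, map_sub, map_mul, hπφ, hπφ, hpq, sub_self]
  · rw [← Ideal.Quotient.eq_zero_iff_mem, hπφ, ← Ideal.mem_span_singleton, ← hh', RingHom.mem_ker]

end Fermat.Agent.S26
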