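import Mathlib
import Fermat.Agent.S26.Alg.T7a.Scale
import Fermat.Agent.S26.Alg.T7a.Homog
import Fermat.Agent.S26.Alg.T7a.Generic
import Fermat.Agent.S26.Alg.T7a.Integral
import Fermat.Agent.S26.Alg.T7a.Points
import Fermat.Agent.S26.Alg.T7a.Nakayama

/-!
# S26 / T7a : successive generic linear projections

`D` a finitely generated domain over an algebraically closed field `K`, `ε` a `K`-point with
maximal ideal `m`, `x₁ … x_g` generating `m` modulo `m²`, `trdeg D < g`.  After changing the
`x_i` modulo `m²`, every element of `D` is a fraction `p(x') / q(x')` with `q(0) ≠ 0`.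

Proof: write `D = K[x, z₁ … z_N]` with `z_j ∈ m²`; remove the `z_j` one at a time by a generic
linear projection `w ↦ w - c t` (`T7a.step`): a homogeneous relation makes `t` integral over
`D' = K[w - c t]`, the fibre over the origin is the single reduced point `ε`, and Nakayama gives
`r ∈ D'`, `ε r = 1`, `r D ⊆ D'`.
-/

set_option autoImplicit false

open scoped TensorProduct

universe u

namespace Fermat.Agent.S26

open MvPolynomial

/-! ## Small lemmas -/

theorem T7a.aeval_sub_mem_span {K D σ : Type*} [CommRing K] [CommRing D] [Algebra K D]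
    (v : σ → D) (P : MvPolynomial σ K) :
    aeval v P - algebraMap K D (eval 0 P) ∈ Ideal.span (Set.range v) := by
  induction P using MvPolynomial.induction_on with
  | C a => simp
  | add p q hp hq =>
    have := add_mem hp hq
    simp only [map_add]
    convert this using 1
    ring
  | mul_X p i hp =>
    simp only [map_mul, aeval_X, eval_X, Pi.zero_apply, mul_zero, map_zero, sub_zero]
    exact Ideal.mul_mem_left _ _ (Ideal.subset_span ⟨i, rfl⟩)

theorem T7a.eps_aeval {K D σ : Type*} [CommRing K] [CommRing D] [Algebra K D]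
    (ε : D →ₐ[K] K) (v : σ → D) (hv : ∀ i, ε (v i) = 0) (P : MvPolynomial σ K) :
    ε (aeval v P) = eval 0 P := by
  have h0 : (fun i => ε (v i)) = (0 : σ → K) := funext hv
  rw [comp_aeval_apply, h0, aeval_eq_eval]

theorem T7a.sq_le_ker {K D : Type*} [CommRing K] [CommRing D] [Algebra K D]
    (ε : D →ₐ[K] K) : (RingHom.ker ε) ^ 2 ≤ RingHom.ker ε :=
  Ideal.pow_le_self two_ne_zero

theorem T7a.finite_of_isIntegral {K D ι : Type*} [Field K] [CommRing D] [Algebra K D]
    (D' : Subalgebra K D) (w : ι → D) (t : D) (c : ι → K)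
    (hgen : Algebra.adjoin K (Set.range w ∪ {t}) = ⊤)
    (hmem : ∀ i, w i - algebraMap K D (c i) * t ∈ D')
    (hint : IsIntegral D' t) : Module.Finite D' D := by
  have hS : ∀ y ∈ D', y ∈ Algebra.adjoin D' ({t} : Set D) := fun y hy =>
    (Algebra.adjoin D' ({t} : Set D)).algebraMap_mem ⟨y, hy⟩
  have htS : t ∈ Algebra.adjoin D' ({t} : Set D) := Algebra.subset_adjoin rfl
  have htop : Algebra.adjoin D' ({t} : Set D) = ⊤ := by
    rw [eq_top_iff]
    intro y _
    have hy : y ∈ Algebra.adjoin K (Set.range w ∪ {t}) := by rw [hgen]; trivial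
    induction hy using Algebra.adjoin_induction with
    | mem y hy =>
      rcases hy with ⟨i, rfl⟩ | rfl
      · have h1 : w i = (w i - algebraMap K D (c i) * t) + algebraMap K D (c i) * t := by ring
        rw [h1]
        exact add_mem (hS _ (hmem i)) (mul_mem (hS _ (D'.algebraMap_mem _)) htS)
      · exact htS
    | algebraMap r => exact hS _ (D'.algebraMap_mem _)
    | add a b _ _ ha hb => exact add_mem (ha trivial) (hb trivial)
    | mul a b _ _ ha hb => exact mul_mem (ha trivial) (hb trivial)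
  have h2 := hint.fg_adjoin_singleton
  rw [htop, Algebra.top_toSubmodule] at h2
  exact ⟨h2⟩

/-! ## The projection step -/

theorem T7a.step {K D : Type u} [Field K] [IsAlgClosed K] [CommRing D] [IsDomain D]
    [Algebra K D] (ε : D →ₐ[K] K) {ι : Type} [Fintype ι] (w : ι → D) (t : D)
    (hw : ∀ i, ε (w i) = 0) (ht : t ∈ (RingHom.ker ε) ^ 2)
    (hgen : Algebra.adjoin K (Set.range w ∪ {t}) = ⊤)
    (htr : Algebra.trdeg K D < (Fintype.card ι : Cardinal.{u})) :
    ∃ c : ι → K, ∃ r ∈ Algebra.adjoin K (Set.range fun i => w i - algebraMap K D (c i) * t),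
      ε r = 1 ∧
      ∀ d : D, r * d ∈ Algebra.adjoin K (Set.range fun i => w i - algebraMap K D (c i) * t) := by
  classical
  have ht0 : ε t = 0 := T7a.sq_le_ker ε ht
  have hft : Algebra.FiniteType K D := by
    refine ⟨⟨(Finset.univ.image w) ∪ {t}, ?_⟩⟩
    rw [← hgen]
    congr 1
    ext y
    simp
  have hcard : Algebra.trdeg K D + 1 < (Fintype.card (Option ι) : Cardinal.{u}) := by
    obtain ⟨m, hm⟩ := Cardinal.lt_aleph0.mp (lt_trans htr Cardinal.natCast_lt_aleph0)
    rw [hm] at htr ⊢
    rw [Fintype.card_option]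
    have : m < Fintype.card ι := by exact_mod_cast htr
    exact_mod_cast Nat.succ_lt_succ this
  obtain ⟨e, G, hG0, hG, hrel⟩ :=
    T7a.exists_homogeneous_relation (fun o : Option ι => o.elim t w) hcard
  obtain ⟨c, hc⟩ := T7a.exists_eval_ne_zero hG hG0
  refine ⟨c, ?_⟩
  have hint := T7a.isIntegral_of_homogeneous hG c hc w t hrel
  set w' : ι → D := fun i => w i - algebraMap K D (c i) * t with hw'
  set D' := Algebra.adjoin K (Set.range w') with hD'
  have hw'mem : ∀ i, w' i ∈ D' := fun i => Algebra.subset_adjoin ⟨i, rfl⟩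
  have hfin : Module.Finite D' D := T7a.finite_of_isIntegral D' w t c hgen hw'mem hint
  have hpt : ∀ η : D →ₐ[K] K, Ideal.span (Set.range w') ≤ RingHom.ker η → η = ε := by
    intro η hη
    have h1 : ∀ i, η (w i) = η t * c i := by
      intro i
      have h3 : η (w' i) = 0 := hη (Ideal.subset_span ⟨i, rfl⟩)
      simp only [hw', map_sub, map_mul, AlgHom.commutes, Algebra.algebraMap_self,
        RingHom.id_apply] at h3
      linear_combination h3
    have h2 : η t = 0 := by
      have h3 := congrArg η hrel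
      have h4 : (fun o : Option ι => η (o.elim t w)) =
          fun o : Option ι => η t * (o.elim 1 c) := by
        funext o
        cases o with
        | none => simp
        | some i => simpa using h1 i
      rw [map_zero, comp_aeval_apply, h4, aeval_eq_eval,
        T7a.eval_mul_of_isHomogeneous hG] at h3
      exact eq_zero_of_pow_eq_zero ((mul_eq_zero.mp h3).resolve_right hc)
    apply AlgHom.ext_of_adjoin_eq_top hgen
    rintro _ (⟨i, rfl⟩ | rfl)
    · rw [h1, h2, hw, zero_mul]
    · rw [h2, ht0]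
  have hsup : RingHom.ker ε ≤ Ideal.span (Set.range w') ⊔ (RingHom.ker ε) ^ 2 := by
    intro d hd
    have hrange : Set.range (fun o : Option ι => o.elim t w) = Set.range w ∪ {t} := by
      ext y
      constructor
      · rintro ⟨o, rfl⟩
        cases o with
        | none => exact Or.inr rfl
        | some i => exact Or.inl ⟨i, rfl⟩
      · rintro (⟨i, rfl⟩ | rfl)
        · exact ⟨some i, rfl⟩
        · exact ⟨none, rfl⟩
    have hd' : d ∈ Algebra.adjoin K (Set.range (fun o : Option ι => o.elim t w)) := by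
      rw [hrange, hgen]; trivial
    rw [Algebra.adjoin_range_eq_range_aeval] at hd'
    obtain ⟨P, rfl⟩ := hd'
    have h3 := T7a.aeval_sub_mem_span (fun o : Option ι => o.elim t w) P
    have h4 : eval 0 P = 0 := by
      rw [← T7a.eps_aeval ε (fun o : Option ι => o.elim t w) _ P]
      · exact hd
      · intro o
        cases o with
        | none => exact ht0
        | some i => exact hw i
    rw [h4, map_zero, sub_zero] at h3
    refine (Ideal.span_le.mpr ?_) h3
    rintro _ ⟨o, rfl⟩
    cases o with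
    | none => exact Ideal.mem_sup_right ht
    | some i =>
      have h5 : w i = w' i + algebraMap K D (c i) * t := by simp [hw']
      change w i ∈ _
      rw [h5]
      exact add_mem (Ideal.mem_sup_left (Ideal.subset_span ⟨i, rfl⟩))
        (Ideal.mem_sup_right (Ideal.mul_mem_left _ _ ht))
  have hm := T7a.ker_le_of_le_sup_sq ε _ hpt hsup
  apply T7a.exists_mul_mem D' hfin ε
  refine hm.trans (Ideal.span_mono ?_)
  rintro _ ⟨i, rfl⟩
  refine ⟨hw'mem i, ?_⟩
  simp [hw', hw, ht0]

/-! ## Squares of the maximal ideal in the subalgebra -/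

theorem T7a.mem_sq {K D : Type*} [Field K] [CommRing D] [Algebra K D]
    (D' : Subalgebra K D) (ε : D →ₐ[K] K) (r : D) (hr : r ∈ D') (hr1 : ε r = 1)
    (hrD : ∀ d : D, r * d ∈ D') (y : D') (hy : (y : D) ∈ (RingHom.ker ε) ^ 2) :
    y ∈ (RingHom.ker (ε.comp D'.val)) ^ 2 := by
  have key : ∀ s ∈ (RingHom.ker ε) ^ 2,
      ∃ y' ∈ (RingHom.ker (ε.comp D'.val)) ^ 2, (y' : D) = r * r * s := by
    intro s hs
    rw [sq] at hs
    induction hs using Submodule.mul_induction_on' with
    | mem_mul_mem a ha b hb =>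
      refine ⟨⟨r * a, hrD a⟩ * ⟨r * b, hrD b⟩, ?_, ?_⟩
      · rw [sq]
        refine Ideal.mul_mem_mul ?_ ?_
        · have : ε a = 0 := ha
          simp [RingHom.mem_ker, this]
        · have : ε b = 0 := hb
          simp [RingHom.mem_ker, this]
      · simp only [MulMemClass.mk_mul_mk]
        ring
    | add a _ b _ ha hb =>
      obtain ⟨y1, h1, e1⟩ := ha
      obtain ⟨y2, h2, e2⟩ := hb
      refine ⟨y1 + y2, add_mem h1 h2, ?_⟩
      rw [Subalgebra.coe_add, e1, e2]
      ring
  obtain ⟨y', hy', e'⟩ := key _ hy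
  have hy0 : ε (y : D) = 0 := T7a.sq_le_ker ε hy
  have hdec : y = y' + (1 - ⟨r, hr⟩ * ⟨r, hr⟩) * y := by
    apply Subtype.ext
    simp only [Subalgebra.coe_add, Subalgebra.coe_mul, Subalgebra.coe_sub, Subalgebra.coe_one, e']
    ring
  rw [hdec]
  refine add_mem hy' ?_
  rw [sq]
  refine Ideal.mul_mem_mul ?_ ?_
  · simp [RingHom.mem_ker, hr1]
  · simpa [RingHom.mem_ker] using hy0

theorem T7a.coe_mem_sq {K D : Type*} [Field K] [CommRing D] [Algebra K D]
    (D' : Subalgebra K D) (ε : D →ₐ[K] K) (y : D')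
    (hy : y ∈ (RingHom.ker (ε.comp D'.val)) ^ 2) : (y : D) ∈ (RingHom.ker ε) ^ 2 := by
  have h1 := Ideal.mem_map_of_mem D'.val hy
  rw [Ideal.map_pow] at h1
  refine Ideal.pow_right_mono ?_ 2 h1
  rw [Ideal.map_le_iff_le_comap]
  intro a ha
  exact ha

/-! ## The induction on the number of extra generators -/

theorem T7a.main (K : Type u) [Field K] [IsAlgClosed K] (g : ℕ) (N : ℕ) :
    ∀ (D : Type u) [CommRing D] [IsDomain D] [Algebra K D] (ε : D →ₐ[K] K)
      (_ : Algebra.trdeg K D < g) (x : Fin g → D) (_ : ∀ i, ε (x i) = 0)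
      (z : Fin N → D) (_ : ∀ j, z j ∈ (RingHom.ker ε) ^ 2)
      (_ : Algebra.adjoin K (Set.range x ∪ Set.range z) = ⊤),
      ∃ x' : Fin g → D, (∀ i, x' i - x i ∈ (RingHom.ker ε) ^ 2) ∧
        ∀ d : D, ∃ p q : MvPolynomial (Fin g) K, eval 0 q ≠ 0 ∧
          aeval x' q * d = aeval x' p := by
  induction N with
  | zero =>
    intro D _ _ _ ε htr x hx z hz hgen
    refine ⟨x, fun i => by simp, fun d => ?_⟩
    have hd : d ∈ Algebra.adjoin K (Set.range x) := by
      have h1 : Set.range x ∪ Set.range z = Set.range x := by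
        rw [Set.range_eq_empty z, Set.union_empty]
      rw [← h1, hgen]; trivial
    rw [Algebra.adjoin_range_eq_range_aeval] at hd
    obtain ⟨P, rfl⟩ := hd
    exact ⟨P, 1, by simp, by simp⟩
  | succ N ih =>
    intro D _ _ _ ε htr x hx z hz hgen
    -- the data of the projection step
    set w : Fin g ⊕ Fin N → D := Sum.elim x (fun j => z j.succ) with hw
    set t : D := z 0 with ht
    have ht0 : ε t = 0 := T7a.sq_le_ker ε (hz 0)
    have hw0 : ∀ i, ε (w i) = 0 := by
      rintro (i | j)
      · exact hx i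
      · exact T7a.sq_le_ker ε (hz j.succ)
    have hgen' : Algebra.adjoin K (Set.range w ∪ {t}) = ⊤ := by
      rw [eq_top_iff, ← hgen]
      apply Algebra.adjoin_mono
      rintro _ (⟨i, rfl⟩ | ⟨j, rfl⟩)
      · exact Or.inl ⟨Sum.inl i, rfl⟩
      · refine Fin.cases ?_ (fun j => ?_) j
        · exact Or.inr rfl
        · exact Or.inl ⟨Sum.inr j, rfl⟩
    have hcard : Algebra.trdeg K D < (Fintype.card (Fin g ⊕ Fin N) : Cardinal.{u}) := by
      refine lt_of_lt_of_le htr ?_
      simp
    obtain ⟨c, r, hr, hr1, hrD⟩ := T7a.step ε w t hw0 (hz 0) hgen' hcard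
    set w' : Fin g ⊕ Fin N → D := fun i => w i - algebraMap K D (c i) * t with hw'
    set D' := Algebra.adjoin K (Set.range w') with hD'
    have hw'mem : ∀ i, w' i ∈ D' := fun i => Algebra.subset_adjoin ⟨i, rfl⟩
    have hctm : ∀ i, algebraMap K D (c i) * t ∈ (RingHom.ker ε) ^ 2 := fun i =>
      Ideal.mul_mem_left _ _ (hz 0)
    -- apply the induction hypothesis to `D'`
    obtain ⟨x'', hx'', hfrac⟩ := ih D' (ε.comp D'.val)
      (lt_of_le_of_lt (trdeg_le_of_injective D'.val Subtype.val_injective) htr)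
      (fun i => ⟨w' (Sum.inl i), hw'mem _⟩)
      (fun i => by simp [hw', hw0, ht0])
      (fun j => ⟨w' (Sum.inr j), hw'mem _⟩)
      (fun j => T7a.mem_sq D' ε r hr hr1 hrD _ (sub_mem (hz j.succ) (hctm _)))
      (by
        rw [eq_top_iff, ← Algebra.adjoin_adjoin_coe_preimage]
        apply Algebra.adjoin_mono
        rintro ⟨y, hy⟩ ⟨i, hi⟩
        rcases i with i | j
        · exact Or.inl ⟨i, Subtype.ext hi⟩
        · exact Or.inr ⟨j, Subtype.ext hi⟩)
    have hx' : ∀ i, (x'' i : D) - x i ∈ (RingHom.ker ε) ^ 2 := by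
      intro i
      have h1 := T7a.coe_mem_sq D' ε _ (hx'' i)
      have h2 : (x'' i : D) - x i =
          ((x'' i - ⟨w' (Sum.inl i), hw'mem _⟩ : D') : D) -
            algebraMap K D (c (Sum.inl i)) * t := by
        simp only [hw', hw, Sum.elim_inl, Subalgebra.coe_sub]
        ring
      rw [h2]
      exact sub_mem h1 (hctm _)
    have hεx' : ∀ i, ε (x'' i : D) = 0 := by
      intro i
      have h1 : ε ((x'' i : D) - x i) = 0 := T7a.sq_le_ker ε (hx' i)
      rw [map_sub, hx, sub_zero] at h1
      exact h1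
    have hval : ∀ P : MvPolynomial (Fin g) K,
        ((aeval x'' P : D') : D) = aeval (fun i => (x'' i : D)) P := by
      intro P
      exact comp_aeval_apply (f := x'') D'.val P
    refine ⟨fun i => (x'' i : D), hx', fun d => ?_⟩
    obtain ⟨p1, q1, hq1, e1⟩ := hfrac ⟨r * d, hrD d⟩
    obtain ⟨p2, q2, hq2, e2⟩ := hfrac ⟨r, hr⟩
    have e1' := congrArg (Subtype.val) e1
    have e2' := congrArg (Subtype.val) e2
    simp only [Subalgebra.coe_mul, hval] at e1' e2'
    have hp2 : eval 0 p2 ≠ 0 := by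
      have h3 := congrArg ε e2'
      rw [map_mul, T7a.eps_aeval ε _ hεx', T7a.eps_aeval ε _ hεx', hr1, mul_one] at h3
      rw [← h3]
      exact hq2
    refine ⟨q2 * p1, q1 * p2, ?_, ?_⟩
    · rw [map_mul]
      exact mul_ne_zero hq1 hp2
    · rw [map_mul, map_mul, ← e1', ← e2']
      ring

/-! ## The initial reduction -/

theorem T7a.exists_linear {K D : Type*} [Field K] [CommRing D] [Algebra K D]
    (ε : D →ₐ[K] K) (g : ℕ) (x : Fin g → D) (hx : ∀ i, ε (x i) = 0)
    (hgen : RingHom.ker ε ≤ Ideal.span (Set.range x) ⊔ (RingHom.ker ε) ^ 2) (y : D) :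
    ∃ b : Fin g → K,
      y - algebraMap K D (ε y) - ∑ i, algebraMap K D (b i) * x i ∈ (RingHom.ker ε) ^ 2 := by
  have h1 : y - algebraMap K D (ε y) ∈ RingHom.ker ε := by
    simp [RingHom.mem_ker]
  obtain ⟨u, hu, s, hs, hus⟩ := Submodule.mem_sup.mp (hgen h1)
  obtain ⟨a, rfl⟩ := (Ideal.mem_span_range_iff_exists_fun).mp hu
  refine ⟨fun i => ε (a i), ?_⟩
  have h2 : y - algebraMap K D (ε y) - ∑ i, algebraMap K D (ε (a i)) * x i =
      s + ∑ i, (a i - algebraMap K D (ε (a i))) * x i := by
    rw [← hus]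
    simp only [sub_mul, Finset.sum_sub_distrib]
    ring
  rw [h2]
  refine add_mem hs (sum_mem fun i _ => ?_)
  rw [sq]
  refine Ideal.mul_mem_mul ?_ (hx i)
  simp [RingHom.mem_ker]

theorem t7a (K : Type u) [Field K] [IsAlgClosed K] (D : Type u) [CommRing D] [IsDomain D]
    [Algebra K D] [Algebra.FiniteType K D] (ε : D →ₐ[K] K) (g : ℕ)
    (htr : Algebra.trdeg K D < g) (x : Fin g → D) (hx : ∀ i, ε (x i) = 0)
    (hgen : RingHom.ker ε ≤ Ideal.span (Set.range x) ⊔ (RingHom.ker ε) ^ 2) :
    ∃ x' : Fin g → D, (∀ i, x' i - x i ∈ (RingHom.ker ε) ^ 2) ∧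
      ∀ d : D, ∃ p q : MvPolynomial (Fin g) K, MvPolynomial.eval 0 q ≠ 0 ∧
        MvPolynomial.aeval x' q * d = MvPolynomial.aeval x' p := by
  obtain ⟨N, f, hf⟩ := Algebra.FiniteType.iff_quotient_mvPolynomial''.mp
    (inferInstance : Algebra.FiniteType K D)
  choose b hb using fun j : Fin N => T7a.exists_linear ε g x hx hgen (f (X j))
  refine T7a.main K g N D ε htr x hx
    (fun j => f (X j) - algebraMap K D (ε (f (X j))) - ∑ i, algebraMap K D (b j i) * x i) hb ?_
  rw [eq_top_iff]
  have h1 : (⊤ : Subalgebra K D) = Algebra.adjoin K (Set.range fun j => f (X j)) := by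
    rw [Algebra.adjoin_range_eq_range_aeval, eq_comm, eq_top_iff]
    intro y _
    obtain ⟨P, rfl⟩ := hf y
    refine ⟨P, ?_⟩
    conv_rhs => rw [aeval_unique f]
    rfl
  rw [h1]
  apply Algebra.adjoin_le
  rintro _ ⟨j, rfl⟩
  set S := Algebra.adjoin K (Set.range x ∪ Set.range fun j =>
    f (X j) - algebraMap K D (ε (f (X j))) - ∑ i, algebraMap K D (b j i) * x i) with hS
  have h2 : f (X j) = (f (X j) - algebraMap K D (ε (f (X j))) -
      ∑ i, algebraMap K D (b j i) * x i) + algebraMap K D (ε (f (X j))) +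
      ∑ i, algebraMap K D (b j i) * x i := by ring
  change f (X j) ∈ S
  rw [h2]
  refine add_mem (add_mem (Algebra.subset_adjoin (Or.inr ⟨j, rfl⟩)) (S.algebraMap_mem _))
    (sum_mem fun i _ => mul_mem (S.algebraMap_mem _) (Algebra.subset_adjoin (Or.inl ⟨i, rfl⟩)))

end Fermat.Agent.S26
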