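import Mathlib
import Fermat.Agent.S26.Alg.T7
import Fermat.Agent.S26.Alg.T7a

/-!
# S26 / T7 : `t7` unconditionally (`t7_of_t7a` applied to `t7a`)
-/

set_option autoImplicit false

open scoped TensorProduct

universe u

namespace Fermat.Agent.S26

theorem t7 (K : Type u) [Field K] [IsAlgClosed K] (B : Type u) [CommRing B] [Algebra K B]
    [Algebra.FiniteType K B] (ε : B →ₐ[K] K) (g : ℕ) (x : Fin g → B) (hx : ∀ i, ε (x i) = 0)
    (hgen : RingHom.ker ε ≤ Ideal.span (Set.range x) ⊔ (RingHom.ker ε) ^ 2)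
    (P : Ideal B) [P.IsPrime] (hP : P ≤ RingHom.ker ε)
    (htr : Algebra.trdeg K (B ⧸ P) + 1 = g) :
    ∃ h ∈ P, ∃ s : B, ε s ≠ 0 ∧ ∀ p ∈ P, ∃ b, s * p = b * h :=
  t7_of_t7a t7a K B ε g x hx hgen P hP htr

end Fermat.Agent.S26
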