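/-
S26 / Alg / EtRed : an étale algebra over a domain is reduced; transcendence degree.
-/
import Mathlib

set_option autoImplicit false

open scoped TensorProduct

namespace Fermat.Agent.S26

/-- `S → Frac R ⊗[R] S` is injective for `S` étale over the domain `R`. -/
theorem etRed_includeRight_injective (R S : Type*) [CommRing R] [IsDomain R] [CommRing S]
    [Algebra R S] [Algebra.Etale R S] :
    Function.Injective
      (Algebra.TensorProduct.includeRight : S →ₐ[R] FractionRing R ⊗[R] S) :=
  Algebra.TensorProduct.includeRight_injective (IsFractionRing.injective R (FractionRing R))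

theorem etRed_isReduced (R S : Type*) [CommRing R] [IsDomain R] [CommRing S] [Algebra R S]
    [Algebra.Etale R S] : IsReduced S := by
  have h1 : IsReduced (FractionRing R ⊗[R] S) :=
    Algebra.FormallyUnramified.isReduced_of_field (FractionRing R) (FractionRing R ⊗[R] S)
  exact isReduced_of_injective
    (Algebra.TensorProduct.includeRight : S →ₐ[R] FractionRing R ⊗[R] S)
    (etRed_includeRight_injective R S)

theorem etRed_injective (R S : Type*) [CommRing R] [IsDomain R] [CommRing S] [IsDomain S] [Algebra R S]
    [Algebra.Etale R S] : Function.Injective (algebraMap R S) := by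
  rw [injective_iff_map_eq_zero]
  intro r hr
  by_contra hr0
  have hr1 : algebraMap R (FractionRing R) r ≠ 0 := by
    rwa [Ne, IsFractionRing.to_map_eq_zero_iff]
  have h1 : (Algebra.TensorProduct.includeRight : S →ₐ[R] FractionRing R ⊗[R] S) 1 = 0 := by
    rw [Algebra.TensorProduct.includeRight_apply]
    have h2 : (1 : FractionRing R) = r • (algebraMap R (FractionRing R) r)⁻¹ := by
      rw [Algebra.smul_def, mul_inv_cancel₀ hr1]
    rw [h2, TensorProduct.smul_tmul, Algebra.smul_def, hr, zero_mul, TensorProduct.tmul_zero]
  have h3 := etRed_includeRight_injective R S (h1.trans (map_zero _).symm)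
  exact one_ne_zero h3

theorem etRed_isAlgebraic (R S : Type*) [CommRing R] [IsDomain R] [CommRing S] [IsDomain S] [Algebra R S]
    [Algebra.Etale R S] : Algebra.IsAlgebraic R S := by
  have h1 : Module.Finite (FractionRing R) (FractionRing R ⊗[R] S) :=
    Algebra.FormallyUnramified.finite_of_free (FractionRing R) (FractionRing R ⊗[R] S)
  have h2 : Algebra.IsIntegral (FractionRing R) (FractionRing R ⊗[R] S) :=
    Algebra.IsIntegral.of_finite _ _
  refine ⟨fun s => ?_⟩
  rw [← isAlgebraic_algHom_iff
    (Algebra.TensorProduct.includeRight : S →ₐ[R] FractionRing R ⊗[R] S)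
    (etRed_includeRight_injective R S),
    IsFractionRing.isAlgebraic_iff R (FractionRing R) (FractionRing R ⊗[R] S)]
  exact (h2.isIntegral _).isAlgebraic

theorem etRed_trdeg (K : Type*) [Field K] (g : ℕ) (S : Type*) [CommRing S] [IsDomain S] [Algebra K S]
    (y : MvPolynomial (Fin g) K →ₐ[K] S) (hy : y.Etale) : Algebra.trdeg K S = g := by
  let _ : Algebra (MvPolynomial (Fin g) K) S := y.toRingHom.toAlgebra
  have het : Algebra.Etale (MvPolynomial (Fin g) K) S := hy
  have htower : IsScalarTower K (MvPolynomial (Fin g) K) S :=
    IsScalarTower.of_algebraMap_eq fun x => (y.commutes x).symm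
  have hinj := etRed_injective (MvPolynomial (Fin g) K) S
  have halg := etRed_isAlgebraic (MvPolynomial (Fin g) K) S
  have hf : FaithfulSMul (MvPolynomial (Fin g) K) S :=
    (faithfulSMul_iff_algebraMap_injective _ _).2 hinj
  have h1 := lift_trdeg_add_eq K (MvPolynomial (Fin g) K) S
  rw [MvPolynomial.trdeg_of_isDomain, trdeg_eq_zero (R := MvPolynomial (Fin g) K) (A := S)] at h1
  simp only [Cardinal.mk_fin, Cardinal.lift_natCast, Cardinal.lift_zero, add_zero] at h1
  exact (Cardinal.lift_eq_nat_iff.1 h1.symm)

end Fermat.Agent.S26
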