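import Mathlib

/-!
# S26 / ET-2 : a curve through a point of an étale chart, avoiding a hypersurface,
with a separating parameter
-/

set_option autoImplicit false

open scoped TensorProduct

universe u

namespace Fermat.Agent.S26

/-- a field extension through which a formally unramified map factors is finite separable. -/
theorem EtCurve_finite_sep {A E F : Type*} [CommRing A] [Field E] [Field F] [Algebra E F]
    [Algebra.EssFiniteType E F] (φ : A →+* F) (hφ : φ.FormallyUnramified) (ψ : A →+* E)
    (h : (algebraMap E F).comp ψ = φ) : FiniteDimensional E F ∧ Algebra.IsSeparable E F := by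
  have h1 : (algebraMap E F).FormallyUnramified :=
    RingHom.FormallyUnramified.of_comp (f := ψ) (h ▸ hφ)
  have h2 : Algebra.FormallyUnramified E F := RingHom.formallyUnramified_algebraMap.1 h1
  exact ⟨Algebra.FormallyUnramified.finite_of_free E F,
    (Algebra.FormallyUnramified.iff_isSeparable E F).1 h2⟩

/-- a flat algebra over a domain which is nontrivial is faithful. -/
theorem EtCurve_injective {A B : Type*} [CommRing A] [IsDomain A] [CommRing B] [Nontrivial B]
    [Algebra A B] [Module.Flat A B] : Function.Injective (algebraMap A B) := by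
  rw [injective_iff_map_eq_zero]
  intro a ha
  by_contra h0
  have h1 := Module.Flat.isSMulRegular_of_nonZeroDivisors (M := B)
    (mem_nonZeroDivisors_of_ne_zero h0)
  have h2 : a • (1 : B) = a • (0 : B) := by
    rw [Algebra.smul_def, mul_one, ha, smul_zero]
  exact one_ne_zero (h1 h2)

/-- an étale algebra between domains is algebraic. -/
theorem EtCurve_isAlgebraic {A B : Type*} [CommRing A] [IsDomain A] [CommRing B] [IsDomain B]
    [Algebra A B] [Algebra.Etale A B] : Algebra.IsAlgebraic A B := by
  have hinj : Function.Injective (algebraMap A B) := EtCurve_injective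
  have : FaithfulSMul A B := (faithfulSMul_iff_algebraMap_injective A B).2 hinj
  have : FaithfulSMul A (FractionRing B) := by
    rw [faithfulSMul_iff_algebraMap_injective, IsScalarTower.algebraMap_eq A B (FractionRing B)]
    exact (IsFractionRing.injective B (FractionRing B)).comp hinj
  let : Algebra (FractionRing A) (FractionRing B) := FractionRing.liftAlgebra A (FractionRing B)
  have : IsScalarTower A (FractionRing A) (FractionRing B) :=
    FractionRing.isScalarTower_liftAlgebra A (FractionRing B)
  have : Algebra.FormallyUnramified B (FractionRing B) :=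
    Algebra.FormallyUnramified.of_isLocalization (nonZeroDivisors B)
  have : Algebra.FormallyUnramified A (FractionRing B) :=
    Algebra.FormallyUnramified.comp A B (FractionRing B)
  have : Algebra.FormallyUnramified (FractionRing A) (FractionRing B) :=
    Algebra.FormallyUnramified.of_restrictScalars A (FractionRing A) (FractionRing B)
  have : Algebra.EssFiniteType B (FractionRing B) :=
    Algebra.EssFiniteType.of_isLocalization (FractionRing B) (nonZeroDivisors B)
  have : Algebra.EssFiniteType A (FractionRing B) :=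
    Algebra.EssFiniteType.comp A B (FractionRing B)
  have : Algebra.EssFiniteType (FractionRing A) (FractionRing B) :=
    Algebra.EssFiniteType.of_comp A (FractionRing A) (FractionRing B)
  have : Module.Finite (FractionRing A) (FractionRing B) :=
    Algebra.FormallyUnramified.finite_of_free (FractionRing A) (FractionRing B)
  constructor
  intro b
  have h1 : IsAlgebraic (FractionRing A) (algebraMap B (FractionRing B) b) :=
    Algebra.IsAlgebraic.isAlgebraic _
  have h2 : IsAlgebraic A (algebraMap B (FractionRing B) b) :=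
    (IsFractionRing.isAlgebraic_iff A (FractionRing A) (FractionRing B)).2 h1
  exact (isAlgebraic_algebraMap_iff (IsFractionRing.injective B (FractionRing B))).1 h2

/-- the parametrised line `s ↦ a + s v`. -/
noncomputable def EtCurve_line {K : Type*} [Field K] {g : ℕ} (a v : Fin g → K) :
    MvPolynomial (Fin g) K →ₐ[K] Polynomial K :=
  MvPolynomial.aeval fun i => Polynomial.C (a i) + Polynomial.C (v i) * Polynomial.X

theorem EtCurve_eval_line {K : Type*} [Field K] {g : ℕ} (a v : Fin g → K) (s : K)
    (H : MvPolynomial (Fin g) K) :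
    (EtCurve_line a v H).eval s = MvPolynomial.eval (fun i => a i + v i * s) H := by
  have h : ((Polynomial.aeval s : Polynomial K →ₐ[K] K).comp (EtCurve_line a v)) =
      MvPolynomial.aeval (fun i => a i + v i * s) := by
    apply MvPolynomial.algHom_ext
    intro i
    simp [EtCurve_line]
  have h2 := DFunLike.congr_fun h H
  rw [AlgHom.comp_apply, Polynomial.coe_aeval_eq_eval, MvPolynomial.aeval_eq_eval] at h2
  exact h2

/-- a line through `a` on which `H` does not vanish identically. -/
theorem EtCurve_exists_dir {K : Type*} [Field K] [Infinite K] {g : ℕ} (hg : 1 ≤ g)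
    (a : Fin g → K) (H : MvPolynomial (Fin g) K) (hH : H ≠ 0) :
    ∃ (v : Fin g → K) (i₀ : Fin g), v i₀ ≠ 0 ∧ EtCurve_line a v H ≠ 0 := by
  obtain ⟨x, hx⟩ : ∃ x : Fin g → K, MvPolynomial.eval x H ≠ 0 := by
    by_contra hcon
    push Not at hcon
    exact hH (MvPolynomial.funext fun x => by rw [hcon x, map_zero])
  by_cases hxa : x = a
  · refine ⟨fun _ => 1, ⟨0, hg⟩, one_ne_zero, fun h0 => hx ?_⟩
    have h1 := EtCurve_eval_line a (fun _ => 1) 0 H
    rw [h0, Polynomial.eval_zero] at h1
    rw [hxa, h1]
    simp
  · obtain ⟨i₀, hi₀⟩ : ∃ i₀, x i₀ ≠ a i₀ := by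
      by_contra hcon
      push Not at hcon
      exact hxa (funext hcon)
    refine ⟨fun i => x i - a i, i₀, sub_ne_zero.2 hi₀, fun h0 => hx ?_⟩
    have h1 := EtCurve_eval_line a (fun i => x i - a i) 1 H
    rw [h0, Polynomial.eval_zero] at h1
    rw [h1]
    simp

/-- abstract core: going down along an étale map over a "line" `l : A → K[X]`. -/
theorem EtCurve_core (K : Type u) [Field K] (A B : Type u) [CommRing A] [CommRing B]
    [Algebra K A] [Algebra K B] [Algebra.FiniteType K A] (y : A →ₐ[K] B) (hy : y.Etale)
    (l : A →ₐ[K] Polynomial K) (T : A) (hT : l T = Polynomial.X)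
    (Q : Ideal B) [Q.IsPrime] (hQ : RingHom.ker l ≤ Q.comap y) :
    ∃ (p : Ideal B) (_ : p.IsPrime), p ≤ Q ∧ p.comap y = RingHom.ker l ∧
      ∃ t : B ⧸ p, Transcendental K t ∧
        ∀ (F : Type u) [Field F] [Algebra K F] [Algebra (B ⧸ p) F] [IsScalarTower K (B ⧸ p) F]
          [IsFractionRing (B ⧸ p) F],
          FiniteDimensional (IntermediateField.adjoin K {algebraMap (B ⧸ p) F t}) F ∧
          Algebra.IsSeparable (IntermediateField.adjoin K {algebraMap (B ⧸ p) F t}) F := by
  classical
  have hfu : y.toRingHom.FormallyUnramified := hy.formallyUnramified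
  algebraize [y.toRingHom]
  have hmap : ∀ a : A, algebraMap A B a = y a := fun _ => rfl
  have htower : IsScalarTower K A B := IsScalarTower.of_algebraMap_eq fun c => by
    rw [hmap, AlgHom.commutes]
  have hqprime : (RingHom.ker l).IsPrime := RingHom.ker_isPrime _
  have hQprime : (Q.comap (algebraMap A B)).IsPrime := Ideal.comap_isPrime _ _
  have hlies : Q.LiesOver (Q.comap (algebraMap A B)) := ⟨rfl⟩
  obtain ⟨p, hpQ, hpP, hpq⟩ := Ideal.exists_ideal_le_liesOver_of_le (p := RingHom.ker l)
    (q := Q.comap (algebraMap A B)) Q hQ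
  have hcomap : p.comap y = RingHom.ker l := hpq.over.symm
  have hmem : ∀ a : A, y a ∈ p ↔ l a = 0 := by
    intro a
    rw [← RingHom.mem_ker, ← hcomap]
    rfl
  refine ⟨p, hpP, hpQ, hcomap, Ideal.Quotient.mk p (y T), ?_, ?_⟩
  all_goals
    have haev : ∀ P : Polynomial K, Polynomial.aeval (Ideal.Quotient.mk p (y T)) P =
        Ideal.Quotient.mk p (y (Polynomial.aeval T P)) := by
      intro P
      exact Polynomial.aeval_algHom_apply ((Ideal.Quotient.mkₐ K p).comp y) T P
    have hlaev : ∀ P : Polynomial K, l (Polynomial.aeval T P) = P := by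
      intro P
      rw [← Polynomial.aeval_algHom_apply, hT, Polynomial.aeval_X_left_apply]
  · rw [transcendental_iff]
    intro P hP
    rw [haev, Ideal.Quotient.eq_zero_iff_mem, hmem, hlaev] at hP
    exact hP
  · intro F _ _ _ _ _
    have hkey : ∀ a : A, Ideal.Quotient.mk p (y a) =
        Polynomial.aeval (Ideal.Quotient.mk p (y T)) (l a) := by
      intro a
      rw [haev, Ideal.Quotient.eq, ← map_sub, hmem, map_sub, hlaev, sub_self]
    set τ : F := algebraMap (B ⧸ p) F (Ideal.Quotient.mk p (y T)) with hτ
    have hFT : Algebra.FiniteType K B := Algebra.FiniteType.trans (S := A) inferInstance inferInstance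
    have hFT' : Algebra.FiniteType K (B ⧸ p) :=
      Algebra.FiniteType.of_surjective (Ideal.Quotient.mkₐ K p) (Ideal.Quotient.mkₐ_surjective K p)
    have hE1 : Algebra.EssFiniteType (B ⧸ p) F :=
      Algebra.EssFiniteType.of_isLocalization F (nonZeroDivisors (B ⧸ p))
    have hE2 : Algebra.EssFiniteType K F := Algebra.EssFiniteType.comp K (B ⧸ p) F
    have hE3 : Algebra.EssFiniteType (IntermediateField.adjoin K {τ}) F :=
      Algebra.EssFiniteType.of_comp K (IntermediateField.adjoin K {τ}) F
    refine EtCurve_finite_sep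
      ((algebraMap (B ⧸ p) F).comp ((Ideal.Quotient.mk p).comp y.toRingHom)) ?_
      ((Polynomial.aeval (⟨τ, IntermediateField.mem_adjoin_simple_self K τ⟩ :
        IntermediateField.adjoin K {τ})).toRingHom.comp l.toRingHom) ?_
    · refine RingHom.FormallyUnramified.comp
        (RingHom.FormallyUnramified.comp hfu
          (RingHom.FormallyUnramified.of_surjective Ideal.Quotient.mk_surjective)) ?_
      exact RingHom.formallyUnramified_algebraMap.2
        (Algebra.FormallyUnramified.of_isLocalization (nonZeroDivisors (B ⧸ p)))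
    · refine RingHom.ext fun a => ?_
      show algebraMap (IntermediateField.adjoin K {τ}) F
        (Polynomial.aeval (⟨τ, IntermediateField.mem_adjoin_simple_self K τ⟩ :
          IntermediateField.adjoin K {τ}) (l a)) =
        algebraMap (B ⧸ p) F (Ideal.Quotient.mk p (y a))
      rw [hkey, ← Polynomial.aeval_algebraMap_apply, ← Polynomial.aeval_algebraMap_apply]
      rfl

/-- a curve through a given point, not contained in a given hypersurface -/
theorem et_exists_curve (K : Type u) [Field K] [IsAlgClosed K] (B : Type u) [CommRing B] [IsDomain B]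
    [Algebra K B] (g : ℕ) (hg : 1 ≤ g) (y : MvPolynomial (Fin g) K →ₐ[K] B) (hy : y.Etale)
    (ε : B →ₐ[K] K) (h : B) (hh : h ≠ 0) :
    ∃ (p : Ideal B) (_ : p.IsPrime), p ≤ RingHom.ker ε ∧ h ∉ p ∧
      ∃ t : B ⧸ p, Transcendental K t ∧
        ∀ (F : Type u) [Field F] [Algebra K F] [Algebra (B ⧸ p) F] [IsScalarTower K (B ⧸ p) F]
          [IsFractionRing (B ⧸ p) F],
          FiniteDimensional (IntermediateField.adjoin K {algebraMap (B ⧸ p) F t}) F ∧
          Algebra.IsSeparable (IntermediateField.adjoin K {algebraMap (B ⧸ p) F t}) F := by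
  classical
  have hInf : Infinite K := IsAlgClosed.instInfinite
  -- `H ≠ 0` with `y H ∈ (h)`
  obtain ⟨H, hH0, hHdvd⟩ : ∃ H : MvPolynomial (Fin g) K, H ≠ 0 ∧ h ∣ y H := by
    algebraize [y.toRingHom]
    have halg : Algebra.IsAlgebraic (MvPolynomial (Fin g) K) B := EtCurve_isAlgebraic
    exact (halg.isAlgebraic h).exists_nonzero_dvd (mem_nonZeroDivisors_of_ne_zero hh)
  set a : Fin g → K := fun i => ε (y (MvPolynomial.X i)) with ha
  obtain ⟨v, i₀, hv, hHv⟩ := EtCurve_exists_dir hg a H hH0
  have hT : EtCurve_line a v (MvPolynomial.C (v i₀)⁻¹ *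
      (MvPolynomial.X i₀ - MvPolynomial.C (a i₀))) = Polynomial.X := by
    simp only [EtCurve_line, map_mul, map_sub, MvPolynomial.aeval_C, MvPolynomial.aeval_X,
      Polynomial.algebraMap_eq, add_sub_cancel_left]
    rw [← mul_assoc, ← Polynomial.C_mul, inv_mul_cancel₀ hv, Polynomial.C_1, one_mul]
  have hQprime : (RingHom.ker ε).IsPrime := RingHom.ker_isPrime _
  have hε : ε.comp y = (Polynomial.aeval (0 : K) : Polynomial K →ₐ[K] K).comp (EtCurve_line a v) := by
    apply MvPolynomial.algHom_ext
    intro i
    simp [EtCurve_line, ha]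
  have hQ : RingHom.ker (EtCurve_line a v) ≤ (RingHom.ker ε).comap y := by
    intro b hb
    rw [RingHom.mem_ker] at hb
    rw [Ideal.mem_comap, RingHom.mem_ker]
    have h1 := DFunLike.congr_fun hε b
    rw [AlgHom.comp_apply, AlgHom.comp_apply, hb, map_zero] at h1
    exact h1
  obtain ⟨p, hp, hpQ, hcomap, t, ht, hF⟩ := EtCurve_core K (MvPolynomial (Fin g) K) B y hy
    (EtCurve_line a v) _ hT (RingHom.ker ε) hQ
  refine ⟨p, hp, hpQ, fun hhp => hHv ?_, t, ht, hF⟩
  have h1 : y H ∈ p := Ideal.mem_of_dvd p hHdvd hhp
  have h2 : H ∈ p.comap y := h1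
  rw [hcomap, RingHom.mem_ker] at h2
  exact h2

end Fermat.Agent.S26
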